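/-
S29lib / H / TJ  (helper1)

The Hecke operators `TJ N ℓ` on `J₀(N)(ℚ̄)` used by the Kummer comparison (`ComparisonData.TJ`):
* at `ℓ ∤ N` the prelude's `heckeOperatorBar N ℓ` (= `α_* β^*`, the correspondence of the
  Eichler–Shimura relation),
* at `ℓ ∣ N` the TRANSPOSED correspondence `β_* α^*` (prelude's `heckePic0BarTranspose`), which
  under the Kummer map is the combinatorial `U_ℓ` (representatives `(1 j; 0 ℓ)`).
All prelude inputs are supplied by `S37lib/HeckeInst`.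
-/
import Mathlib
import Fermat.Prelude.Def_ModularCurve_HeckeModule
import Fermat.Agent.S37lib.HeckeInst.Final

set_option autoImplicit false
set_option linter.style.haveILetI false
set_option linter.unusedSectionVars false

noncomputable section

namespace Fermat.Agent.S29lib.H

open AlgebraicCurve ModularCurve
open Fermat.Agent.S37lib.HeckeInst

local notation "Qb" => AlgebraicClosure ℚ

variable (N : ℕ) [NeZero N]

/-- the correspondence `α_* β^*` on `J₀(N)(ℚ̄)` with the explicit inputs of `S37lib/HeckeInst` -/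
def heckeStd (ℓ : ℕ) [NeZero ℓ] : JZero N →+ JZero N :=
  haveI := hasPrincipalDivisors_FB (N * ℓ)
  heckePic0Bar (heckeAlphaBarIntegral N ℓ) (heckeBetaBarIntegral N ℓ)
    (fundamentalIdentityAlong_beta N ℓ) (finiteAlong_alpha N ℓ) (normFormulaAlong_alpha N ℓ)

/-- the transposed correspondence `β_* α^*` on `J₀(N)(ℚ̄)` -/
def heckeTr (ℓ : ℕ) [NeZero ℓ] : JZero N →+ JZero N :=
  haveI := hasPrincipalDivisors_FB (N * ℓ)
  heckePic0BarTranspose (heckeAlphaBarIntegral N ℓ) (heckeBetaBarIntegral N ℓ)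
    (fundamentalIdentityAlong_alpha N ℓ) (finiteAlong_beta N ℓ) (normFormulaAlong_beta N ℓ)

/-- the prelude's `heckeOperatorBar` is `heckeStd` -/
theorem heckeOperatorBar_eq_heckeStd (ℓ : Nat.Primes) (x : JZero N) :
    heckeOperatorBar N ℓ x = (haveI : NeZero (ℓ : ℕ) := ⟨ℓ.2.ne_zero⟩; heckeStd N ℓ x) := by
  haveI : NeZero (ℓ : ℕ) := ⟨ℓ.2.ne_zero⟩
  haveI := hasPrincipalDivisors_FB (N * ℓ)
  rw [heckeOperatorBar_apply,
    heckeOperatorAlong_eq (heckeAlphaBarIntegral N ℓ) (heckeBetaBarIntegral N ℓ)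
      (fundamentalIdentityAlong_beta N ℓ) (finiteAlong_alpha N ℓ) (normFormulaAlong_alpha N ℓ)]
  rfl

open Classical in
/-- **The Hecke operators of the Kummer comparison.** -/
def TJ (ℓ : Nat.Primes) : JZero N →+ JZero N :=
  haveI : NeZero (ℓ : ℕ) := ⟨ℓ.2.ne_zero⟩
  if (ℓ : ℕ) ∣ N then heckeTr N ℓ else heckeStd N ℓ

theorem TJ_of_dvd {ℓ : Nat.Primes} (h : (ℓ : ℕ) ∣ N) :
    TJ N ℓ = (haveI : NeZero (ℓ : ℕ) := ⟨ℓ.2.ne_zero⟩; heckeTr N ℓ) := by
  rw [TJ, if_pos h]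

theorem TJ_of_not_dvd {ℓ : Nat.Primes} (h : ¬ (ℓ : ℕ) ∣ N) :
    TJ N ℓ = (haveI : NeZero (ℓ : ℕ) := ⟨ℓ.2.ne_zero⟩; heckeStd N ℓ) := by
  rw [TJ, if_neg h]

/-- `ComparisonData.TJ_good` for this choice of `TJ`. -/
theorem TJ_good (ℓ : Nat.Primes) (h : ¬ (ℓ : ℕ) ∣ N) (x : JZero N) :
    TJ N ℓ x = heckeOperatorBar N ℓ x := by
  rw [TJ_of_not_dvd N h, heckeOperatorBar_eq_heckeStd]

end Fermat.Agent.S29lib.H
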