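/-
S29lib / H / Comb  (helper1)

The combinatorial Hecke operators on `Hom(Γ₀(N), M)`, `M` any abelian group.

* `CosetDatum Γ ι`: a permutation action `σ` of `Γ` on a finite index set and a cocycle
  `c : Γ → ι → Γ` with `c (γ γ') x = c γ x * c γ' (σ γ x)`;
  `CosetDatum.combOp M : (Additive Γ →+ M) →+ (Additive Γ →+ M)`,
  `(T ψ)(γ) = ∑ x, ψ (c γ x)`, natural in `M`.
* `tDatum`, `uDatum`: the data of `T_ℓ` (`ℓ ∤ N`, representatives `heckeRep ℓ x`) and of `U_p`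
  (`p ∣ N`, representatives `(1 j; 0 p)`) on `Γ₀(N)`, from `S16lib/LH` (`tCoc_rel`, `uCoc_rel`).
* `combT N ℓ M`: the combinatorial operator for every prime `ℓ`.
-/
import Mathlib
import Fermat.Agent.S16lib.LH.Equivariance

set_option autoImplicit false

noncomputable section

namespace Fermat.Agent.S29lib.H

open UpperHalfPlane CongruenceSubgroup Matrix.SpecialLinearGroup ModularForm
open Fermat.Agent.S16lib.LH
open P2MW.S_ModularForm_heckeT_slash_eq_self_of_mem_Gamma0.ModularForm.HeckeSlashInvariance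
open scoped MatrixGroups

/-! ### Abstract coset data -/

/-- A permutation action of `Γ` on `ι` (written on the right) and a `Γ`-valued cocycle. -/
structure CosetDatum (Γ : Type*) [Group Γ] (ι : Type*) where
  /-- the permutation induced by `γ` -/
  σ : Γ → Equiv.Perm ι
  /-- the cocycle -/
  c : Γ → ι → Γ
  σ_mul : ∀ γ γ' x, σ (γ * γ') x = σ γ' (σ γ x)
  c_mul : ∀ γ γ' x, c (γ * γ') x = c γ x * c γ' (σ γ x)

namespace CosetDatum

variable {Γ : Type*} [Group Γ] {ι : Type*} [Fintype ι] (D : CosetDatum Γ ι)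

/-- the combinatorial operator `(T ψ)(γ) = ∑ x, ψ (c γ x)` on one homomorphism -/
def combHom {M : Type*} [AddCommGroup M] (ψ : Additive Γ →+ M) : Additive Γ →+ M :=
  AddMonoidHom.mk' (fun γ => ∑ x, ψ (Additive.ofMul (D.c (Additive.toMul γ) x))) (by
    intro γ γ'
    show ∑ x, ψ (Additive.ofMul (D.c (Additive.toMul γ * Additive.toMul γ') x)) = _
    simp_rw [D.c_mul, ofMul_mul, map_add]
    rw [Finset.sum_add_distrib]
    congr 1
    exact Equiv.sum_comp (D.σ (Additive.toMul γ))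
      (fun x => ψ (Additive.ofMul (D.c (Additive.toMul γ') x))))

@[simp] theorem combHom_apply {M : Type*} [AddCommGroup M] (ψ : Additive Γ →+ M) (γ : Γ) :
    D.combHom ψ (Additive.ofMul γ) = ∑ x, ψ (Additive.ofMul (D.c γ x)) := rfl

/-- the combinatorial operator as an endomorphism of `Hom(Γ, M)` -/
def combOp (M : Type*) [AddCommGroup M] : (Additive Γ →+ M) →+ (Additive Γ →+ M) where
  toFun ψ := D.combHom ψ
  map_zero' := by
    ext γ
    simp [combHom]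
  map_add' ψ ψ' := by
    ext γ
    simp [combHom, Finset.sum_add_distrib]

@[simp] theorem combOp_apply {M : Type*} [AddCommGroup M] (ψ : Additive Γ →+ M) (γ : Γ) :
    D.combOp M ψ (Additive.ofMul γ) = ∑ x, ψ (Additive.ofMul (D.c γ x)) := rfl

/-- naturality in the coefficient group -/
theorem combOp_comp {M M' : Type*} [AddCommGroup M] [AddCommGroup M'] (f : M →+ M')
    (ψ : Additive Γ →+ M) : D.combOp M' (f.comp ψ) = f.comp (D.combOp M ψ) := by
  ext γ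
  show ∑ x, f (ψ _) = f (∑ x, ψ _)
  rw [map_sum]

end CosetDatum

/-! ### Coset data from a matrix relation -/

/-- A coset datum on `Γ₀(N)` from representatives in `GL(2,ℝ)` with
`rep x * γ = c γ x * rep (σ γ x)`, given the composition law of the permutations. -/
def CosetDatum.ofRel {N : ℕ} {ι : Type*} (rep : ι → GL (Fin 2) ℝ)
    (σ : Gamma0 N → Equiv.Perm ι) (c : Gamma0 N → ι → Gamma0 N)
    (rel : ∀ (γ : Gamma0 N) (x : ι), rep x * (mapGL ℝ (γ : SL(2, ℤ)) : GL (Fin 2) ℝ) =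
      (mapGL ℝ ((c γ x : Gamma0 N) : SL(2, ℤ)) : GL (Fin 2) ℝ) * rep (σ γ x))
    (hσ : ∀ (γ γ' : Gamma0 N) (x : ι), σ (γ * γ') x = σ γ' (σ γ x)) : CosetDatum (Gamma0 N) ι where
  σ := σ
  c := c
  σ_mul := hσ
  c_mul := by
    intro γ γ' x
    have h1 := rel (γ * γ') x
    have h2 : rep x * (mapGL ℝ ((γ * γ' : Gamma0 N) : SL(2, ℤ)) : GL (Fin 2) ℝ) =
        (mapGL ℝ ((c γ x * c γ' (σ γ x) : Gamma0 N) : SL(2, ℤ)) : GL (Fin 2) ℝ) *
          rep (σ γ' (σ γ x)) := by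
      rw [Subgroup.coe_mul, map_mul, ← mul_assoc, rel γ x, mul_assoc, rel γ' (σ γ x),
        ← mul_assoc, Subgroup.coe_mul, map_mul]
    rw [hσ] at h1
    have h3 := h1.symm.trans h2
    have h4 := mul_right_cancel h3
    exact Subtype.ext (mapGL_injective h4)

/-! ### The data of `T_ℓ` and `U_p` -/

section T

variable {N : ℕ} {ℓ : ℕ} [Fact ℓ.Prime]

/-- `redMatrix` is anti-multiplicative. -/
theorem redMatrix_mul (g g' : SL(2, ℤ)) :
    redMatrix ℓ (g * g') = redMatrix ℓ g' * redMatrix ℓ g := by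
  apply Matrix.GeneralLinearGroup.ext
  intro i j
  rw [Matrix.GeneralLinearGroup.coe_mul, Matrix.mul_apply, Fin.sum_univ_two]
  fin_cases i <;> fin_cases j <;>
    simp only [Fin.zero_eta, Fin.mk_one, redMatrix_apply_zero_zero, redMatrix_apply_zero_one,
      redMatrix_apply_one_zero, redMatrix_apply_one_one, Matrix.SpecialLinearGroup.coe_mul,
      Matrix.mul_apply, Fin.sum_univ_two] <;>
    push_cast <;> ring

theorem tPerm_mul (γ γ' : Gamma0 N) (x : OnePoint (ZMod ℓ)) :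
    tPerm ℓ (γ * γ') x = tPerm ℓ γ' (tPerm ℓ γ x) := by
  simp only [tPerm, MulAction.toPerm_apply, Subgroup.coe_mul, redMatrix_mul, mul_smul]

/-- the coset datum of `T_ℓ`, `ℓ ∤ N` -/
def tDatum (hℓN : ¬ ℓ ∣ N) : CosetDatum (Gamma0 N) (OnePoint (ZMod ℓ)) :=
  CosetDatum.ofRel (heckeRep ℓ) (tPerm ℓ) (tCoc hℓN) (tCoc_rel hℓN) tPerm_mul

@[simp] theorem tDatum_c (hℓN : ¬ ℓ ∣ N) (γ : Gamma0 N) (x : OnePoint (ZMod ℓ)) :
    (tDatum hℓN).c γ x = tCoc hℓN γ x := rfl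

@[simp] theorem tDatum_σ (hℓN : ¬ ℓ ∣ N) (γ : Gamma0 N) : (tDatum hℓN).σ γ = tPerm ℓ γ := rfl

end T

section U

variable {N : ℕ} {p : ℕ} [NeZero p]

theorem uPerm_mul (hpN : p ∣ N) (γ γ' : Gamma0 N) (x : ZMod p) :
    uPerm hpN (γ * γ') x = uPerm hpN γ' (uPerm hpN γ x) := by
  have h0 := lowerLeft_zmod_eq_zero hpN γ
  have h0' := lowerLeft_zmod_eq_zero hpN γ'
  have hu := unit_of_apply_one_zero_eq_zero (γ : SL(2, ℤ)) h0
  simp only [uPerm, affinePerm_apply, Subgroup.coe_mul, Matrix.SpecialLinearGroup.coe_mul,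
    Matrix.mul_apply, Fin.sum_univ_two]
  push_cast
  rw [h0]
  linear_combination
    ((((((γ' : SL(2, ℤ)) 1 1 : ℤ)) : ZMod p) * ((((γ' : SL(2, ℤ)) 0 1 : ℤ)) : ZMod p))) * hu

/-- the coset datum of `U_p`, `p ∣ N` -/
def uDatum (hpN : p ∣ N) : CosetDatum (Gamma0 N) (ZMod p) :=
  CosetDatum.ofRel (fun x : ZMod p => heckeMatrix p x.val) (uPerm hpN) (uCoc hpN) (uCoc_rel hpN)
    (uPerm_mul hpN)

@[simp] theorem uDatum_c (hpN : p ∣ N) (γ : Gamma0 N) (x : ZMod p) :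
    (uDatum hpN).c γ x = uCoc hpN γ x := rfl

@[simp] theorem uDatum_σ (hpN : p ∣ N) (γ : Gamma0 N) : (uDatum hpN).σ γ = uPerm hpN γ := rfl

end U

/-! ### The operator `combT N ℓ M` for every prime `ℓ` -/

section CombT

variable (N : ℕ)

open Classical in
/-- **The combinatorial Hecke operator** at the prime `ℓ` on `Hom(Γ₀(N), M)`: `T_ℓ` if `ℓ ∤ N`,
`U_ℓ` if `ℓ ∣ N`. -/
def combT (ℓ : Nat.Primes) (M : Type*) [AddCommGroup M] :
    (Additive (Gamma0 N) →+ M) →+ (Additive (Gamma0 N) →+ M) :=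
  haveI : Fact (ℓ : ℕ).Prime := ⟨ℓ.2⟩
  haveI : NeZero (ℓ : ℕ) := ⟨ℓ.2.ne_zero⟩
  if h : (ℓ : ℕ) ∣ N then (uDatum h).combOp M else (tDatum h).combOp M

theorem combT_of_dvd {ℓ : Nat.Primes} (h : (ℓ : ℕ) ∣ N) (M : Type*) [AddCommGroup M] :
    combT N ℓ M = (haveI : NeZero (ℓ : ℕ) := ⟨ℓ.2.ne_zero⟩; (uDatum h).combOp M) := by
  rw [combT, dif_pos h]

theorem combT_of_not_dvd {ℓ : Nat.Primes} (h : ¬ (ℓ : ℕ) ∣ N) (M : Type*) [AddCommGroup M] :
    combT N ℓ M = (haveI : Fact (ℓ : ℕ).Prime := ⟨ℓ.2⟩; (tDatum h).combOp M) := by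
  rw [combT, dif_neg h]

/-- naturality of `combT` in the coefficient group -/
theorem combT_comp (ℓ : Nat.Primes) {M M' : Type*} [AddCommGroup M] [AddCommGroup M']
    (f : M →+ M') (ψ : Additive (Gamma0 N) →+ M) :
    combT N ℓ M' (f.comp ψ) = f.comp (combT N ℓ M ψ) := by
  haveI : Fact (ℓ : ℕ).Prime := ⟨ℓ.2⟩
  haveI : NeZero (ℓ : ℕ) := ⟨ℓ.2.ne_zero⟩
  by_cases h : (ℓ : ℕ) ∣ N
  · rw [combT_of_dvd N h, combT_of_dvd N h]
    exact CosetDatum.combOp_comp _ f ψ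
  · rw [combT_of_not_dvd N h, combT_of_not_dvd N h]
    exact CosetDatum.combOp_comp _ f ψ

end CombT

end Fermat.Agent.S29lib.H
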