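/-
S29lib / H / CombVZ  (helper1)

The combinatorial Hecke operators on the lattice `V_ℤ = parabolicHoms ℤ Γ₀(N) ℤ`:
* `heckeS2 N ℓ`: the prelude's Hecke operator on `S₂(Γ₀(N))` at the prime `ℓ` (`T_ℓ` or `U_ℓ`);
* `periodHomPair_heckeS2`: the Eichler–Shimura map intertwines `(T, T)` with `combT N ℓ ℂ`;
* `combT` preserves `parabolicHoms ℂ` and `V_ℤ`; `combTZ N ℓ : V_ℤ →ₗ[ℤ] V_ℤ`;
* `tMat b ℓ`: its matrix in a basis `b`, and the coordinate formula;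
* `combT_redVZ`: compatibility with reduction mod `n`.
-/
import Mathlib
import Fermat.Agent.S29lib.H.Comb
import Fermat.Agent.S16lib.LG.Lift
import Fermat.Agent.S21

set_option autoImplicit false
set_option linter.unusedSectionVars false

noncomputable section

namespace Fermat.Agent.S29lib.H

open UpperHalfPlane CongruenceSubgroup Matrix.SpecialLinearGroup ModularForm
open ModularCurve ModularCurve.Period
open Fermat.Agent.S16lib.LH Fermat.Agent.S16lib.LG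
open scoped MatrixGroups

variable (N : ℕ) [NeZero N]

open Classical in
/-- the prelude's Hecke operator on `S₂(Γ₀(N))` at the prime `ℓ`: `T_ℓ` for `ℓ ∤ N`, `U_ℓ` for
`ℓ ∣ N`. -/
def heckeS2 (ℓ : Nat.Primes) :
    CuspForm (Gamma0 N) 2 →ₗ[ℂ] CuspForm (Gamma0 N) 2 :=
  if h : (ℓ : ℕ) ∣ N then CuspForm.heckeULin 2 h else CuspForm.heckeTLin 2 ℓ.2 h

theorem heckeS2_of_dvd {ℓ : Nat.Primes} (h : (ℓ : ℕ) ∣ N) :
    heckeS2 N ℓ = CuspForm.heckeULin 2 h := by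
  rw [heckeS2, dif_pos h]

theorem heckeS2_of_not_dvd {ℓ : Nat.Primes} (h : ¬ (ℓ : ℕ) ∣ N) :
    heckeS2 N ℓ = CuspForm.heckeTLin 2 ℓ.2 h := by
  rw [heckeS2, dif_neg h]

/-- **Hecke equivariance of the Eichler–Shimura map**, all primes. -/
theorem periodHomPair_heckeS2 (ℓ : Nat.Primes) (f g : CuspForm (Gamma0 N) 2) :
    periodHomPair N (heckeS2 N ℓ f, heckeS2 N ℓ g) = combT N ℓ ℂ (periodHomPair N (f, g)) := by
  haveI : Fact (ℓ : ℕ).Prime := ⟨ℓ.2⟩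
  haveI : NeZero (ℓ : ℕ) := ⟨ℓ.2.ne_zero⟩
  refine AddMonoidHom.ext fun γ => ?_
  by_cases h : (ℓ : ℕ) ∣ N
  · rw [heckeS2_of_dvd N h, combT_of_dvd N h]
    exact (periodHomPair_heckeU h f g (Additive.toMul γ)).trans rfl
  · rw [heckeS2_of_not_dvd N h, combT_of_not_dvd N h]
    exact (periodHomPair_heckeT ℓ.2 h f g (Additive.toMul γ)).trans rfl

/-- `combT` preserves the parabolic homomorphisms with complex coefficients. -/
theorem combT_mem_parabolicHoms_complex (ℓ : Nat.Primes) {ψ : Additive (Gamma0 N) →+ ℂ}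
    (hψ : ψ ∈ parabolicHoms ℂ (Gamma0 N) ℂ) :
    combT N ℓ ℂ ψ ∈ parabolicHoms ℂ (Gamma0 N) ℂ := by
  have h21 := Fermat.Agent.S21.result N
  rw [← h21.2] at hψ ⊢
  obtain ⟨⟨f, g⟩, rfl⟩ := hψ
  exact ⟨(heckeS2 N ℓ f, heckeS2 N ℓ g), periodHomPair_heckeS2 N ℓ f g⟩

/-- the cast `ℤ → ℂ` on homomorphisms -/
def toComplex : (Additive (Gamma0 N) →+ ℤ) →+ (Additive (Gamma0 N) →+ ℂ) where
  toFun ψ := (Int.castAddHom ℂ).comp ψ
  map_zero' := by ext; simp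
  map_add' ψ ψ' := by ext; simp

@[simp] theorem toComplex_apply (ψ : Additive (Gamma0 N) →+ ℤ) (γ : Additive (Gamma0 N)) :
    toComplex N ψ γ = ((ψ γ : ℤ) : ℂ) := rfl

theorem toComplex_injective : Function.Injective (toComplex N) := by
  intro ψ ψ' h
  ext γ
  have := DFunLike.congr_fun h (Additive.ofMul γ)
  simpa using this

theorem toComplex_mem_iff {ψ : Additive (Gamma0 N) →+ ℤ} :
    toComplex N ψ ∈ parabolicHoms ℂ (Gamma0 N) ℂ ↔ ψ ∈ VZ (Gamma0 N) := by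
  simp only [mem_parabolicHoms_iff, IsParabolicHom, toComplex_apply, Int.cast_eq_zero]

theorem combT_toComplex (ℓ : Nat.Primes) (ψ : Additive (Gamma0 N) →+ ℤ) :
    combT N ℓ ℂ (toComplex N ψ) = toComplex N (combT N ℓ ℤ ψ) :=
  combT_comp N ℓ (Int.castAddHom ℂ) ψ

/-- `combT` preserves the lattice `V_ℤ`. -/
theorem combT_mem_VZ (ℓ : Nat.Primes) {ψ : Additive (Gamma0 N) →+ ℤ}
    (hψ : ψ ∈ VZ (Gamma0 N)) : combT N ℓ ℤ ψ ∈ VZ (Gamma0 N) := by
  rw [← toComplex_mem_iff, ← combT_toComplex]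
  exact combT_mem_parabolicHoms_complex N ℓ ((toComplex_mem_iff N).mpr hψ)

/-- **the combinatorial Hecke operator on the lattice `V_ℤ`** -/
def combTZ (ℓ : Nat.Primes) : ↥(VZ (Gamma0 N)) →ₗ[ℤ] ↥(VZ (Gamma0 N)) :=
  ((combT N ℓ ℤ).toIntLinearMap).restrict (fun _ hψ => combT_mem_VZ N ℓ hψ)

@[simp] theorem coe_combTZ (ℓ : Nat.Primes) (ψ : ↥(VZ (Gamma0 N))) :
    ((combTZ N ℓ ψ : ↥(VZ (Gamma0 N))) : Additive (Gamma0 N) →+ ℤ) =
      combT N ℓ ℤ (ψ : Additive (Gamma0 N) →+ ℤ) := rfl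

/-- reduction mod `n` of an integral homomorphism -/
def redZ (n : ℕ) : (Additive (Gamma0 N) →+ ℤ) →+ (Additive (Gamma0 N) →+ ZMod n) where
  toFun ψ := (Int.castAddHom (ZMod n)).comp ψ
  map_zero' := by ext; simp
  map_add' ψ ψ' := by ext; simp

@[simp] theorem redZ_apply (n : ℕ) (ψ : Additive (Gamma0 N) →+ ℤ) (γ : Additive (Gamma0 N)) :
    redZ N n ψ γ = ((ψ γ : ℤ) : ZMod n) := rfl

/-- **`combT` commutes with reduction mod `n`.** -/
theorem combT_redZ (ℓ : Nat.Primes) (n : ℕ) (ψ : Additive (Gamma0 N) →+ ℤ) :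
    combT N ℓ (ZMod n) (redZ N n ψ) = redZ N n (combT N ℓ ℤ ψ) :=
  combT_comp N ℓ (Int.castAddHom (ZMod n)) ψ

/-! ### Matrices -/

section Matrices

variable {N} {r : ℕ} (b : Module.Basis (Fin r) ℤ ↥(VZ (Gamma0 N)))

/-- the matrix of the combinatorial Hecke operator at `ℓ` in the basis `b` of `V_ℤ` -/
def tMat (ℓ : Nat.Primes) : Matrix (Fin r) (Fin r) ℤ := LinearMap.toMatrix b b (combTZ N ℓ)

/-- coordinates of `T_ℓ ψ` are `tMat b ℓ` times the coordinates of `ψ` -/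
theorem repr_combTZ (ℓ : Nat.Primes) (ψ : ↥(VZ (Gamma0 N))) :
    ⇑(b.repr (combTZ N ℓ ψ)) = (tMat b ℓ).mulVec ⇑(b.repr ψ) :=
  (LinearMap.toMatrix_mulVec_repr b b (combTZ N ℓ) ψ).symm

end Matrices

end Fermat.Agent.S29lib.H
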