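/-
S29lib / H / Eigen  (helper1)

The eigen input: if the simultaneous eigenspace of the prelude Hecke operators `heckeS2 N ℓ` on
`S₂(Γ₀(N))` for the system `a` is one-dimensional (multiplicity one), then the simultaneous
eigenspace of the integer matrices `tMat b ℓ` (combinatorial Hecke operators on the lattice
`V_ℤ`, any basis `b`) on `ℂ^r` is two-dimensional.
Route: `Ψ : ℂ^r → Hom(Γ₀(N), ℂ)`, `c ↦ ∑ c_i • b_i`, is injective with range `parabolicHoms ℂ`
(= range of `periodHomPair`, S21) and intertwines `tMat` with `combT`; `periodHomPair` intertwines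
`(T, T)` with `combT` (`CombVZ`).  The prelude's `periodHomPair` is `ℂ`-linear in both slots, so no
complex-conjugate form is needed.
-/
import Mathlib
import Fermat.Agent.S29lib.H.CombVZ

set_option autoImplicit false
set_option linter.unusedSectionVars false

noncomputable section

namespace Fermat.Agent.S29lib.H

open CongruenceSubgroup ModularCurve ModularCurve.Period Module
open Fermat.Agent.S16lib.LG Fermat.Agent.ProgramR.ES
open scoped MatrixGroups

/-! ### Generic linear algebra -/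

section Generic

variable {K : Type*} [Field K] {X Y : Type*} [AddCommGroup X] [Module K X] [AddCommGroup Y]
  [Module K Y] {ι : Type*}

/-- the simultaneous eigenspace of a family of endomorphisms -/
def eigenInf (A : ι → Module.End K X) (a : ι → K) : Submodule K X :=
  ⨅ i, LinearMap.ker (A i - a i • 1)

theorem mem_eigenInf {A : ι → Module.End K X} {a : ι → K} {x : X} :
    x ∈ eigenInf A a ↔ ∀ i, A i x = a i • x := by
  simp only [eigenInf, Submodule.mem_iInf, LinearMap.mem_ker, LinearMap.sub_apply,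
    LinearMap.smul_apply, Module.End.one_apply, sub_eq_zero]

theorem finrank_eigenInf_congr (e : X ≃ₗ[K] Y) (A : ι → Module.End K X)
    (B : ι → Module.End K Y) (h : ∀ i x, e (A i x) = B i (e x)) (a : ι → K) :
    finrank K ↥(eigenInf A a) = finrank K ↥(eigenInf B a) := by
  have hmap : (eigenInf A a).map (e : X →ₗ[K] Y) = eigenInf B a := by
    ext y
    constructor
    · rintro ⟨x, hx, rfl⟩
      rw [SetLike.mem_coe, mem_eigenInf] at hx
      rw [mem_eigenInf]
      intro i
      rw [LinearEquiv.coe_coe, ← h, hx i, map_smul]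
    · intro hy
      rw [mem_eigenInf] at hy
      refine ⟨e.symm y, ?_, by simp⟩
      rw [SetLike.mem_coe, mem_eigenInf]
      intro i
      apply e.injective
      rw [h, e.apply_symm_apply, hy i, map_smul, e.apply_symm_apply]
  rw [← hmap]
  exact (LinearEquiv.finrank_map_eq e _).symm

/-- the product of two submodules is the product of the types -/
def prodSubEquiv (p : Submodule K X) (q : Submodule K Y) : ↥(p.prod q) ≃ₗ[K] (↥p × ↥q) where
  toFun x := (⟨x.1.1, x.2.1⟩, ⟨x.1.2, x.2.2⟩)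
  invFun y := ⟨(y.1.1, y.2.1), ⟨y.1.2, y.2.2⟩⟩
  map_add' _ _ := rfl
  map_smul' _ _ := rfl
  left_inv _ := rfl
  right_inv _ := rfl

theorem eigenInf_prodMap (A : ι → Module.End K X) (a : ι → K) :
    eigenInf (fun i => (A i).prodMap (A i)) a = (eigenInf A a).prod (eigenInf A a) := by
  ext ⟨x, y⟩
  simp only [mem_eigenInf, Submodule.mem_prod, LinearMap.prodMap_apply, Prod.smul_mk,
    Prod.mk.injEq]
  exact forall_and

theorem finrank_eigenInf_prodMap [FiniteDimensional K X] (A : ι → Module.End K X) (a : ι → K) :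
    finrank K ↥(eigenInf (fun i => (A i).prodMap (A i)) a) = 2 * finrank K ↥(eigenInf A a) := by
  rw [eigenInf_prodMap, (prodSubEquiv _ _).finrank_eq, Module.finrank_prod]
  ring

end Generic

/-! ### Integral independent families stay independent over `ℂ` -/

section Indep

variable {Γ : Type*} {r : ℕ}

/-- A `ℤ`-linearly independent family of integer valued functions is `ℂ`-linearly independent:
if `∑ c_i ψ_i(γ) = 0` for all `γ` with complex `c_i`, then all `c_i = 0`. -/
theorem eq_zero_of_sum_intCast_eq_zero (ψ : Fin r → Γ → ℤ)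
    (hψ : ∀ m : Fin r → ℤ, (∀ γ, ∑ i, m i * ψ i γ = 0) → m = 0)
    (c : Fin r → ℂ) (hc : ∀ γ, ∑ i, c i * (ψ i γ : ℂ) = 0) : c = 0 := by
  funext i
  rw [Pi.zero_apply, ← Module.forall_dual_apply_eq_zero_iff ℚ]
  intro lam
  -- the rational relation
  have hq : ∀ γ, ∑ i, lam (c i) * (ψ i γ : ℚ) = 0 := by
    intro γ
    have h1 := congrArg lam (hc γ)
    rw [map_sum, map_zero] at h1
    rw [← h1]
    refine Finset.sum_congr rfl fun i _ => ?_
    have : c i * (ψ i γ : ℂ) = (ψ i γ : ℚ) • c i := by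
      rw [mul_comm]
      simp [Algebra.smul_def]
    rw [this, map_smul, smul_eq_mul, mul_comm]
  obtain ⟨d, hd⟩ := IsLocalization.exist_integer_multiples_of_finite (nonZeroDivisors ℤ)
    (fun i => lam (c i))
  choose m hm using hd
  have hm' : ∀ i, ((m i : ℤ) : ℚ) = ((d : ℤ) : ℚ) * lam (c i) := by
    intro i
    have := hm i
    simpa [Algebra.smul_def] using this
  have hrel : ∀ γ, ∑ i, m i * ψ i γ = 0 := by
    intro γ
    have h2 : ((∑ i, m i * ψ i γ : ℤ) : ℚ) = 0 := by
      push_cast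
      simp_rw [hm', mul_assoc]
      rw [← Finset.mul_sum, hq γ, mul_zero]
    exact_mod_cast h2
  have hm0 := hψ m hrel
  have hd0 : ((d : ℤ) : ℚ) ≠ 0 := by
    have := nonZeroDivisors.ne_zero d.2
    exact_mod_cast this
  have := hm' i
  rw [hm0, Pi.zero_apply, Int.cast_zero] at this
  exact (mul_eq_zero.mp this.symm).resolve_left hd0

end Indep

/-! ### The coordinate map `Ψ` -/

section Coord

variable (N : ℕ) [NeZero N] {r : ℕ} (b : Basis (Fin r) ℤ ↥(VZ (Gamma0 N)))

/-- `ℂ`-linearity of `combT N ℓ ℂ` -/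
theorem combT_smul (ℓ : Nat.Primes) (c : ℂ) (ψ : Additive (Gamma0 N) →+ ℂ) :
    combT N ℓ ℂ (c • ψ) = c • combT N ℓ ℂ ψ :=
  combT_comp N ℓ (AddMonoidHom.mulLeft c) ψ

/-- `combT N ℓ ℂ` as a `ℂ`-linear endomorphism -/
def combTC (ℓ : Nat.Primes) : Module.End ℂ (Additive (Gamma0 N) →+ ℂ) where
  toFun := combT N ℓ ℂ
  map_add' := map_add _
  map_smul' := combT_smul N ℓ

@[simp] theorem combTC_apply (ℓ : Nat.Primes) (ψ : Additive (Gamma0 N) →+ ℂ) :
    combTC N ℓ ψ = combT N ℓ ℂ ψ := rfl

/-- the coordinate map `c ↦ ∑ c_i • b_i` -/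
def coordMap : (Fin r → ℂ) →ₗ[ℂ] (Additive (Gamma0 N) →+ ℂ) :=
  Fintype.linearCombination ℂ (fun i => toComplex N ((b i : ↥(VZ (Gamma0 N))) : Additive (Gamma0 N) →+ ℤ))

theorem coordMap_apply (c : Fin r → ℂ) :
    coordMap N b c = ∑ i, c i • toComplex N ((b i : ↥(VZ (Gamma0 N))) : Additive (Gamma0 N) →+ ℤ) :=
  Fintype.linearCombination_apply ℂ _ c

theorem coordMap_apply_apply (c : Fin r → ℂ) (γ : Additive (Gamma0 N)) :
    coordMap N b c γ = ∑ i, c i * (((b i : ↥(VZ (Gamma0 N))) : Additive (Gamma0 N) →+ ℤ) γ : ℂ) := by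
  rw [coordMap_apply, AddMonoidHom.finsetSum_apply]
  rfl

theorem coordMap_injective : Function.Injective (coordMap N b) := by
  rw [← LinearMap.ker_eq_bot, LinearMap.ker_eq_bot']
  intro c hc
  refine eq_zero_of_sum_intCast_eq_zero
    (fun i γ => ((b i : ↥(VZ (Gamma0 N))) : Additive (Gamma0 N) →+ ℤ) γ) ?_ c ?_
  · intro m hm
    have h1 : ∑ i, m i • b i = 0 := by
      apply Subtype.ext
      apply AddMonoidHom.ext
      intro γ
      rw [Submodule.coe_sum, AddMonoidHom.finsetSum_apply]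
      simpa [Submodule.coe_smul] using hm γ
    have h2 := Fintype.linearIndependent_iff.mp b.linearIndependent m h1
    exact funext h2
  · intro γ
    rw [← coordMap_apply_apply, hc]
    rfl

theorem coordMap_mem (c : Fin r → ℂ) : coordMap N b c ∈ parabolicHoms ℂ (Gamma0 N) ℂ := by
  rw [coordMap_apply]
  exact Submodule.sum_mem _ fun i _ =>
    Submodule.smul_mem _ _ ((toComplex_mem_iff N).mpr (b i).2)

theorem toComplex_mem_range_coordMap (v : ↥(VZ (Gamma0 N))) :
    toComplex N (v : Additive (Gamma0 N) →+ ℤ) ∈ LinearMap.range (coordMap N b) := by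
  refine ⟨fun i => ((b.repr v i : ℤ) : ℂ), ?_⟩
  rw [coordMap_apply]
  have hv : (v : Additive (Gamma0 N) →+ ℤ) =
      ∑ i, b.repr v i • ((b i : ↥(VZ (Gamma0 N))) : Additive (Gamma0 N) →+ ℤ) := by
    have := congrArg (fun w : ↥(VZ (Gamma0 N)) => (w : Additive (Gamma0 N) →+ ℤ)) (b.sum_repr v).symm
    simpa only [Submodule.coe_sum, Submodule.coe_smul] using this
  conv_rhs => rw [hv]
  rw [map_sum]
  refine Finset.sum_congr rfl fun i _ => ?_
  rw [map_zsmul, ← Int.cast_smul_eq_zsmul ℂ]

theorem range_coordMap : LinearMap.range (coordMap N b) = parabolicHoms ℂ (Gamma0 N) ℂ := by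
  apply le_antisymm
  · rintro _ ⟨c, rfl⟩
    exact coordMap_mem N b c
  · refine (parabolicHoms_complex_le_spanVC (Gamma0 N)).trans ?_
    rw [spanVC, Submodule.span_le]
    rintro _ ⟨i, rfl⟩
    exact toComplex_mem_range_coordMap N b (vBasis (Gamma0 N) i)

/-- `Ψ` intertwines the matrix `tMat b ℓ` with `combT N ℓ ℂ`. -/
theorem coordMap_tMat (ℓ : Nat.Primes) (c : Fin r → ℂ) :
    coordMap N b (Matrix.toLin' ((tMat b ℓ).map (Int.cast : ℤ → ℂ)) c) =
      combT N ℓ ℂ (coordMap N b c) := by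
  rw [coordMap_apply, coordMap_apply, map_sum]
  simp_rw [← combTC_apply, map_smul, combTC_apply, combT_toComplex, ← coe_combTZ]
  -- expand `T b_j` in the basis
  have hT : ∀ j, toComplex N ((combTZ N ℓ (b j) : ↥(VZ (Gamma0 N))) : Additive (Gamma0 N) →+ ℤ) =
      ∑ i, ((tMat b ℓ i j : ℤ) : ℂ) •
        toComplex N ((b i : ↥(VZ (Gamma0 N))) : Additive (Gamma0 N) →+ ℤ) := by
    intro j
    have h1 : combTZ N ℓ (b j) = ∑ i, tMat b ℓ i j • b i := by
      rw [← b.sum_repr (combTZ N ℓ (b j))]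
      refine Finset.sum_congr rfl fun i _ => ?_
      rw [tMat, LinearMap.toMatrix_apply]
    rw [h1, Submodule.coe_sum, map_sum]
    refine Finset.sum_congr rfl fun i _ => ?_
    rw [Submodule.coe_smul, map_zsmul, ← Int.cast_smul_eq_zsmul ℂ]
  simp_rw [hT, Finset.smul_sum, smul_smul]
  rw [Finset.sum_comm]
  refine Finset.sum_congr rfl fun i _ => ?_
  rw [← Finset.sum_smul]
  congr 1
  rw [Matrix.toLin'_apply, Matrix.mulVec, dotProduct]
  refine Finset.sum_congr rfl fun j _ => ?_
  rw [Matrix.map_apply, mul_comm]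

/-- the comparison `ℂ^r ≃ S₂ × S₂` through `Hom(Γ₀(N), ℂ)` -/
def coordEquiv :
    (Fin r → ℂ) ≃ₗ[ℂ] (CuspForm (Gamma0 N) 2 × CuspForm (Gamma0 N) 2) :=
  let hΦ := (Fermat.Agent.S21.result N).1
  let Φ' := LinearEquiv.ofInjective (periodHomPair N) hΦ
  let Ψ' : (Fin r → ℂ) →ₗ[ℂ] ↥(LinearMap.range (periodHomPair N)) :=
    (coordMap N b).codRestrict _ (fun c => by
      rw [(Fermat.Agent.S21.result N).2]; exact coordMap_mem N b c)
  LinearEquiv.ofBijective (Φ'.symm.toLinearMap ∘ₗ Ψ') (by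
    constructor
    · intro c c' h
      have h1 : Ψ' c = Ψ' c' := Φ'.symm.injective h
      exact coordMap_injective N b (congrArg Subtype.val h1)
    · intro x
      have hx : periodHomPair N x ∈ LinearMap.range (coordMap N b) := by
        rw [range_coordMap, ← (Fermat.Agent.S21.result N).2]
        exact ⟨x, rfl⟩
      obtain ⟨c, hc⟩ := hx
      refine ⟨c, ?_⟩
      show Φ'.symm (Ψ' c) = x
      rw [LinearEquiv.symm_apply_eq]
      exact Subtype.ext hc)

/-- the defining property of `coordEquiv` -/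
theorem periodHomPair_coordEquiv (c : Fin r → ℂ) :
    periodHomPair N (coordEquiv N b c) = coordMap N b c := by
  have hΦ := (Fermat.Agent.S21.result N).1
  have h := (LinearEquiv.ofInjective (periodHomPair N) hΦ).apply_symm_apply
    ((coordMap N b).codRestrict (LinearMap.range (periodHomPair N)) (fun c => by
      rw [(Fermat.Agent.S21.result N).2]; exact coordMap_mem N b c) c)
  exact congrArg Subtype.val h

/-- `coordEquiv` intertwines `tMat b ℓ` with `(T_ℓ, T_ℓ)`. -/
theorem coordEquiv_tMat (ℓ : Nat.Primes) (c : Fin r → ℂ) :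
    coordEquiv N b (Matrix.toLin' ((tMat b ℓ).map (Int.cast : ℤ → ℂ)) c) =
      (heckeS2 N ℓ).prodMap (heckeS2 N ℓ) (coordEquiv N b c) := by
  apply (Fermat.Agent.S21.result N).1
  rw [periodHomPair_coordEquiv, coordMap_tMat, LinearMap.prodMap_apply,
    periodHomPair_heckeS2, Prod.mk.eta, periodHomPair_coordEquiv]

/-- **Eigen input (block H).**  If the system `a` has multiplicity one on `S₂(Γ₀(N))`, its
eigenspace on the lattice `V_ℤ ⊗ ℂ = ℂ^r` (coordinates in any basis `b`) has dimension `2`. -/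
theorem finrank_eigen_coord (a : Nat.Primes → ℂ)
    (h1 : finrank ℂ ↥(eigenInf (heckeS2 N) a) = 1) :
    finrank ℂ ↥(⨅ ℓ : Nat.Primes, LinearMap.ker
      (Matrix.toLin' ((tMat b ℓ).map (Int.cast : ℤ → ℂ)) - a ℓ • 1)) = 2 := by
  haveI : FiniteDimensional ℂ (CuspForm (Gamma0 N) 2) := finiteDimensional_cuspForm N
  have h2 := finrank_eigenInf_congr (coordEquiv N b)
    (fun ℓ : Nat.Primes => Matrix.toLin' ((tMat b ℓ).map (Int.cast : ℤ → ℂ)))
    (fun ℓ : Nat.Primes => (heckeS2 N ℓ).prodMap (heckeS2 N ℓ)) (coordEquiv_tMat N b) a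
  have h3 := finrank_eigenInf_prodMap (heckeS2 N) a
  rw [h1] at h3
  rw [h3] at h2
  exact h2

end Coord

end Fermat.Agent.S29lib.H
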