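/-
S29lib / H / NormEmb  (helper1)

Abstract field theory for the analytic norm formula.

* `norm_eq_prod_of_finrank_le`: if `η : ι → (L →ₐ[K] Ω)` is an injective family of `K`-embeddings
  of a finite separable extension `L/K` into a field `Ω` and `[L:K] ≤ #ι`, then
  `algebraMap K Ω (Algebra.norm K x) = ∏ i, η i x`.
* `finrank_le_card_of_conjPoly`: if moreover one `η i₀` is given and, for all `a` in a set `R ⊆ L`
  such that every element of `L` has a nonzero `K`-multiple in `R`, the conjugate polynomial
  `∏ i, (X - η i a)` has coefficients in `K`, then `[L:K] ≤ #ι`.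
-/
import Mathlib

set_option autoImplicit false

noncomputable section

namespace Fermat.Agent.S29lib.H

open Polynomial Module IntermediateField

variable {K L Ω : Type*} [Field K] [Field L] [Field Ω] [Algebra K L] [Algebra K Ω]
  {ι : Type*} [Fintype ι]

/-- **Norm = product over a full family of embeddings.** -/
theorem norm_eq_prod_of_finrank_le [FiniteDimensional K L] [Algebra.IsSeparable K L]
    (η : ι → (L →ₐ[K] Ω)) (hinj : Function.Injective η)
    (hcard : finrank K L ≤ Fintype.card ι) (x : L) :
    algebraMap K Ω (Algebra.norm K x) = ∏ i, η i x := by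
  classical
  let E := AlgebraicClosure Ω
  let η' : ι → (L →ₐ[K] E) := fun i => (IsScalarTower.toAlgHom K Ω E).comp (η i)
  have hinj' : Function.Injective η' := by
    intro i j hij
    apply hinj
    ext y
    have := DFunLike.congr_fun hij y
    exact (algebraMap Ω E).injective this
  have hc : Fintype.card (L →ₐ[K] E) = finrank K L := AlgHom.card K L E
  have hbij : Function.Bijective η' := by
    rw [Fintype.bijective_iff_injective_and_card]
    refine ⟨hinj', le_antisymm (Fintype.card_le_of_injective η' hinj') ?_⟩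
    rw [hc]
    exact hcard
  have h1 := Algebra.norm_eq_prod_embeddings K E x
  rw [← Fintype.prod_bijective η' hbij (fun i => η' i x) (fun σ => σ x) (fun _ => rfl)] at h1
  apply (algebraMap Ω E).injective
  rw [← IsScalarTower.algebraMap_apply, h1, map_prod]
  rfl

/-- **Degree bound from conjugate polynomials.** -/
theorem finrank_le_card_of_conjPoly [FiniteDimensional K L] [Algebra.IsSeparable K L]
    (η : ι → (L →ₐ[K] Ω)) (i₀ : ι) (R : Set L)
    (hR : ∀ y : L, ∃ s : K, s ≠ 0 ∧ s • y ∈ R)
    (hpoly : ∀ a ∈ R, ∃ P : K[X], P.Monic ∧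
      P.map (algebraMap K Ω) = ∏ i, (X - C (η i a))) :
    finrank K L ≤ Fintype.card ι := by
  classical
  obtain ⟨θ, hθ⟩ := Field.exists_primitive_element K L
  obtain ⟨s, hs, hsR⟩ := hR θ
  set a : L := s • θ with ha
  -- `a` is again a primitive element
  have hprim : K⟮a⟯ = ⊤ := by
    rw [eq_top_iff, ← hθ, adjoin_le_iff, Set.singleton_subset_iff]
    have h1 : θ = s⁻¹ • a := by rw [ha, smul_smul, inv_mul_cancel₀ hs, one_smul]
    rw [h1, SetLike.mem_coe]
    exact (K⟮a⟯).smul_mem (mem_adjoin_simple_self K a)
  obtain ⟨P, hPm, hP⟩ := hpoly a hsR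
  have hdeg : P.natDegree = Fintype.card ι := by
    rw [← natDegree_map (algebraMap K Ω), hP,
      natDegree_prod_of_monic _ _ (fun i _ => monic_X_sub_C _)]
    simp
  have hroot : aeval a P = 0 := by
    have h0 : η i₀ (aeval a P) = 0 := by
      rw [← aeval_algHom_apply, aeval_def, ← eval_map, hP, eval_prod]
      exact Finset.prod_eq_zero (Finset.mem_univ i₀) (by simp)
    exact (map_eq_zero_iff (η i₀) (η i₀).toRingHom.injective).mp h0
  have hint : IsIntegral K a := Algebra.IsIntegral.isIntegral a
  have h2 : (minpoly K a).natDegree ≤ P.natDegree :=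
    natDegree_le_of_dvd (minpoly.dvd K a hroot) hPm.ne_zero
  have h3 : finrank K L = (minpoly K a).natDegree := by
    rw [← adjoin.finrank hint, hprim, IntermediateField.finrank_top']
  rw [h3, ← hdeg]
  exact h2

/-- an element whose conjugate polynomial has coefficients in `K` is integral over `K` -/
theorem isIntegral_of_conjPoly_root (η : ι → (L →ₐ[K] Ω)) (i₀ : ι) (a : L) (P : K[X])
    (hPm : P.Monic) (hP : P.map (algebraMap K Ω) = ∏ i, (X - C (η i a))) : IsIntegral K a := by
  have h0 : η i₀ (aeval a P) = 0 := by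
    rw [← aeval_algHom_apply, aeval_def, ← eval_map, hP, eval_prod]
    exact Finset.prod_eq_zero (Finset.mem_univ i₀) (by simp)
  exact ⟨P, hPm, (map_eq_zero_iff (η i₀) (η i₀).toRingHom.injective).mp h0⟩

/-- every element is integral, given conjugate polynomials -/
theorem isIntegral_of_conjPoly (η : ι → (L →ₐ[K] Ω)) (i₀ : ι) (R : Set L)
    (hR : ∀ y : L, ∃ s : K, s ≠ 0 ∧ s • y ∈ R)
    (hpoly : ∀ a ∈ R, ∃ P : K[X], P.Monic ∧
      P.map (algebraMap K Ω) = ∏ i, (X - C (η i a))) (y : L) : IsIntegral K y := by
  obtain ⟨s, hs, hsR⟩ := hR y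
  obtain ⟨P, hPm, hP⟩ := hpoly _ hsR
  have hroot : aeval (s • y) P = 0 := by
    have h0 : η i₀ (aeval (s • y) P) = 0 := by
      rw [← aeval_algHom_apply, aeval_def, ← eval_map, hP, eval_prod]
      exact Finset.prod_eq_zero (Finset.mem_univ i₀) (by simp)
    exact (map_eq_zero_iff (η i₀) (η i₀).toRingHom.injective).mp h0
  have h1 : IsIntegral K (s • y) := ⟨P, hPm, hroot⟩
  have h2 : y = s⁻¹ • (s • y) := by rw [smul_smul, inv_mul_cancel₀ hs, one_smul]
  rw [h2]
  exact h1.smul _

/-- **Finiteness and degree bound from conjugate polynomials** (no finiteness assumed). -/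
theorem finite_and_finrank_le_of_conjPoly [CharZero K]
    (η : ι → (L →ₐ[K] Ω)) (i₀ : ι) (R : Set L)
    (hR : ∀ y : L, ∃ s : K, s ≠ 0 ∧ s • y ∈ R)
    (hpoly : ∀ a ∈ R, ∃ P : K[X], P.Monic ∧
      P.map (algebraMap K Ω) = ∏ i, (X - C (η i a))) :
    FiniteDimensional K L ∧ finrank K L ≤ Fintype.card ι := by
  classical
  have hint : ∀ y : L, IsIntegral K y := isIntegral_of_conjPoly η i₀ R hR hpoly
  have hrank : Module.rank K L ≤ (Fintype.card ι : Cardinal) := by
    apply rank_le
    intro t ht
    -- the finite subextension generated by `t`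
    let E : IntermediateField K L := IntermediateField.adjoin K (t : Set L)
    haveI : FiniteDimensional K E :=
      IntermediateField.finiteDimensional_adjoin (fun x _ => hint x)
    -- the family `t` lives in `E` and is independent there
    let v : t → E := fun i => ⟨(i : L), IntermediateField.subset_adjoin K _ i.2⟩
    have hv : LinearIndependent K v := by
      have : (fun i : t => (i : L)) = (E.val : E →ₗ[K] L) ∘ v := rfl
      rw [this] at ht
      exact LinearIndependent.of_comp _ ht
    have h1 : t.card ≤ finrank K E := by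
      have := hv.fintype_card_le_finrank
      rwa [Fintype.card_coe] at this
    -- the embeddings restricted to `E`
    let ηE : ι → (E →ₐ[K] Ω) := fun i => (η i).comp E.val
    have h2 : finrank K E ≤ Fintype.card ι := by
      refine finrank_le_card_of_conjPoly ηE i₀ {y : E | (y : L) ∈ R} ?_ ?_
      · intro y
        obtain ⟨s, hs, hsR⟩ := hR (y : L)
        exact ⟨s, hs, hsR⟩
      · intro a ha
        exact hpoly (a : L) ha
    exact h1.trans h2
  have hfin : FiniteDimensional K L :=
    Module.rank_lt_aleph0_iff.1 (hrank.trans_lt Cardinal.natCast_lt_aleph0)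
  exact ⟨hfin, Module.finrank_le_of_rank_le hrank⟩

end Fermat.Agent.S29lib.H
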