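/-
S29lib / H / Growth  (helper1)

Growth at the cusps is preserved by composition with integer matrices of positive determinant:
if `∃ m, ∀ g ∈ SL(2,ℤ), a(g z) Δ(z)^m` is bounded at `i∞`, then the same holds for `a ∘ A`,
`A` (the image in `GL(2,ℝ)` of) an integer matrix with positive determinant.
Route: Hermite normal form `M g = g' (u r; 0 s)`.
-/
import Mathlib
import Fermat.Agent.ProgramR.Analytic.JNWH0
import Fermat.Prelude.Def_ModularForm_HeckeOperator

set_option autoImplicit false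

noncomputable section

namespace Fermat.Agent.S29lib.H

open UpperHalfPlane Filter Topology ModularForm Matrix.SpecialLinearGroup
open Fermat.Agent.ProgramR Fermat.Agent.ProgramR.LevelOne
open scoped MatrixGroups Manifold

/-- **Hermite normal form** of an integer `2 × 2` matrix with nonzero determinant. -/
theorem exists_triangular_int (M : Matrix (Fin 2) (Fin 2) ℤ) (hM : M.det ≠ 0) :
    ∃ (g' : SL(2, ℤ)) (u r s : ℤ), u * s = M.det ∧
      M = (g' : Matrix (Fin 2) (Fin 2) ℤ) * !![u, r; 0, s] := by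
  have hdet : M 0 0 * M 1 1 - M 0 1 * M 1 0 = M.det := (Matrix.det_fin_two M).symm
  have hxy : M 0 0 ≠ 0 ∨ M 1 0 ≠ 0 := by
    by_contra hcon
    push Not at hcon
    rw [hcon.1, hcon.2] at hdet
    simp at hdet
    exact hM hdet.symm
  obtain ⟨Γ, hΓ⟩ := exists_SL_bottom_row_kills _ _ hxy
  have hΓdet := SL2_det Γ
  refine ⟨Γ⁻¹, Γ 0 0 * M 0 0 + Γ 0 1 * M 1 0, Γ 0 0 * M 0 1 + Γ 0 1 * M 1 1,
    Γ 1 0 * M 0 1 + Γ 1 1 * M 1 1, ?_, ?_⟩
  · linear_combination (Γ 0 0 * M 0 1 + Γ 0 1 * M 1 1) * hΓ +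
      (M 0 0 * M 1 1 - M 0 1 * M 1 0) * hΓdet + hdet
  · have h1 : (Γ : Matrix (Fin 2) (Fin 2) ℤ) * M =
        !![Γ 0 0 * M 0 0 + Γ 0 1 * M 1 0, Γ 0 0 * M 0 1 + Γ 0 1 * M 1 1;
          0, Γ 1 0 * M 0 1 + Γ 1 1 * M 1 1] := by
      ext i j
      fin_cases i <;> fin_cases j <;> simp [Matrix.mul_apply, Fin.sum_univ_two, hΓ]
    rw [← h1, ← Matrix.mul_assoc, ← Matrix.SpecialLinearGroup.coe_mul, inv_mul_cancel,
      Matrix.SpecialLinearGroup.coe_one, Matrix.one_mul]

/-- the image in `GL(2,ℝ)` of an upper triangular integer matrix acts by `z ↦ (u z + r) / s` -/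
theorem coe_upperTriangularGL_smul (u r s : ℝ) (h : u * s ≠ 0) (hpos : 0 < u * s) (z : ℍ) :
    ((upperTriangularGL u r s h • z : ℍ) : ℂ) = ((u : ℂ) * z + r) / s := by
  have hdet : 0 < (upperTriangularGL u r s h).det.val := by
    show 0 < Matrix.det (upperTriangularGL u r s h : Matrix (Fin 2) (Fin 2) ℝ)
    rw [val_upperTriangularGL, Matrix.det_fin_two_of]
    simpa using hpos
  rw [UpperHalfPlane.coe_smul_of_det_pos hdet]
  simp [UpperHalfPlane.num, UpperHalfPlane.denom]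

/-- **Growth under composition with an integer matrix.** -/
theorem exists_bdd_comp (A : GL (Fin 2) ℝ) (M : Matrix (Fin 2) (Fin 2) ℤ)
    (hA : (A : Matrix (Fin 2) (Fin 2) ℝ) = M.map (Int.cast : ℤ → ℝ)) (hM : 0 < M.det)
    {a : ℍ → ℂ}
    (ha : ∃ m : ℕ, ∀ g : SL(2, ℤ),
      IsBoundedAtImInfty (fun z : ℍ => a (g • z) * ModularForm.discriminant z ^ m)) :
    ∃ m : ℕ, ∀ g : SL(2, ℤ),
      IsBoundedAtImInfty (fun z : ℍ => a (A • (g • z)) * ModularForm.discriminant z ^ m) := by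
  obtain ⟨m, hm⟩ := ha
  obtain ⟨D, hD⟩ : ∃ D : ℕ, (D : ℤ) = M.det := ⟨M.det.toNat, Int.toNat_of_nonneg hM.le⟩
  refine ⟨m * D, fun g => ?_⟩
  -- Hermite normal form of `M * g`
  have hdetMg : (M * (g : Matrix (Fin 2) (Fin 2) ℤ)).det = M.det := by
    rw [Matrix.det_mul, g.det_coe, mul_one]
  obtain ⟨g', u, r, s, hus, hMg⟩ := exists_triangular_int (M * (g : Matrix (Fin 2) (Fin 2) ℤ))
    (by rw [hdetMg]; exact hM.ne')
  rw [hdetMg] at hus
  have husR : (u : ℝ) * s = M.det := by exact_mod_cast hus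
  have husR_pos : (0 : ℝ) < (u : ℝ) * s := by rw [husR]; exact_mod_cast hM
  have hs0 : s ≠ 0 := by
    rintro rfl
    rw [mul_zero] at hus
    exact hM.ne hus
  set U : GL (Fin 2) ℝ := upperTriangularGL u r s husR_pos.ne' with hU
  -- the identity `A * g = g' * U` in `GL(2,ℝ)`
  have hmat : A * (mapGL ℝ g : GL (Fin 2) ℝ) = (mapGL ℝ g' : GL (Fin 2) ℝ) * U := by
    apply Matrix.GeneralLinearGroup.ext
    intro i j
    have h1 := congrFun (congrFun hMg i) j
    have h2 := congrArg (Int.cast : ℤ → ℝ) h1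
    simp only [Matrix.mul_apply, Fin.sum_univ_two] at h2
    push_cast at h2
    rw [Matrix.GeneralLinearGroup.coe_mul, Matrix.GeneralLinearGroup.coe_mul, hA, hU,
      val_upperTriangularGL, mapGL_coe_matrix, mapGL_coe_matrix]
    simp only [Matrix.mul_apply, Fin.sum_univ_two, Matrix.map_apply, eq_intCast]
    fin_cases j <;> simpa using h2
  have hpt : ∀ z : ℍ, A • (g • z) = g' • (U • z) := by
    intro z
    show A • ((mapGL ℝ g : GL (Fin 2) ℝ) • z) = (mapGL ℝ g' : GL (Fin 2) ℝ) • (U • z)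
    rw [← mul_smul, ← mul_smul, hmat]
  -- the imaginary part of `U • z`
  set ρ : ℝ := (u : ℝ) / s with hρ
  have hsR : (s : ℝ) ≠ 0 := by exact_mod_cast hs0
  have hρ_pos : 0 < ρ := by
    have : ρ = ((u : ℝ) * s) / (s : ℝ) ^ 2 := by rw [hρ]; field_simp
    rw [this]
    positivity
  have hρ_le : ρ ≤ D := by
    have h1 : ρ = ((u : ℝ) * s) / (s : ℝ) ^ 2 := by rw [hρ]; field_simp
    have h2 : (1 : ℝ) ≤ (s : ℝ) ^ 2 := by
      have : (1 : ℤ) ≤ s ^ 2 := by
        have := Int.one_le_abs hs0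
        nlinarith [sq_abs s, abs_nonneg s]
      exact_mod_cast this
    have h3 : ((u : ℝ) * s) = D := by rw [husR, ← hD]; norm_cast
    rw [h1, h3]
    exact div_le_self (Nat.cast_nonneg D) h2
  have him : ∀ z : ℍ, (U • z).im = ρ * z.im := by
    intro z
    have h := congr_arg Complex.im (coe_upperTriangularGL_smul u r s husR_pos.ne' husR_pos z)
    rw [UpperHalfPlane.coe_im] at h
    rw [← hU] at h
    rw [h]
    have h' : (((u : ℝ) : ℂ) * (z : ℂ) + ((r : ℝ) : ℂ)) / ((s : ℝ) : ℂ) =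
        ((((u : ℝ) / s : ℝ)) : ℂ) * (z : ℂ) + ((((r : ℝ) / s : ℝ)) : ℂ) := by
      push_cast
      field_simp
    rw [h']
    simp [hρ]
  have hwt : Tendsto (fun z : ℍ => U • z) atImInfty atImInfty := by
    rw [atImInfty, tendsto_comap_iff]
    have : (UpperHalfPlane.im ∘ fun z : ℍ => U • z) = fun z : ℍ => ρ * z.im := funext him
    rw [this]
    exact (tendsto_comap (f := UpperHalfPlane.im) (x := atTop)).const_mul_atTop hρ_pos
  -- boundedness of `a (g' w) q(w)^m` pulled back along `w = U z`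
  have hb0 := (isBoundedAtImInfty_mul_discriminant_pow_iff (fun z => a (g' • z)) m).mp (hm g')
  have hb1 : IsBoundedAtImInfty (fun z : ℍ =>
      a (g' • (U • z)) * Function.Periodic.qParam 1 ((U • z : ℍ) : ℂ) ^ m) :=
    Asymptotics.IsBigO.comp_tendsto hb0 hwt
  rw [isBoundedAtImInfty_mul_discriminant_pow_iff]
  rw [isBoundedAtImInfty_iff] at hb1 ⊢
  obtain ⟨C, Y, hCY⟩ := hb1
  refine ⟨C, Y, fun z hz => ?_⟩
  have hM' := hCY z hz
  have hq1 : ‖Function.Periodic.qParam 1 (z : ℂ)‖ = Real.exp (-2 * Real.pi * z.im) := by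
    rw [Function.Periodic.norm_qParam]; simp
  have hq2 : ‖Function.Periodic.qParam 1 ((U • z : ℍ) : ℂ)‖ =
      Real.exp (-2 * Real.pi * (ρ * z.im)) := by
    rw [Function.Periodic.norm_qParam]
    have : ((U • z : ℍ) : ℂ).im = ρ * z.im := him z
    rw [this]; simp
  rw [norm_mul, norm_pow, hq2, ← Real.exp_nat_mul] at hM'
  rw [hpt z, norm_mul, norm_pow, hq1, ← Real.exp_nat_mul]
  have hle : Real.exp (((m * D : ℕ) : ℝ) * (-2 * Real.pi * z.im)) ≤
      Real.exp ((m : ℝ) * (-2 * Real.pi * (ρ * z.im))) := by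
    apply Real.exp_le_exp.mpr
    have hy : 0 < z.im := z.im_pos
    have hpi := Real.pi_pos
    have hm0 : (0 : ℝ) ≤ m := Nat.cast_nonneg m
    push_cast
    have h5 : (m : ℝ) * (ρ * z.im) ≤ (m : ℝ) * ((D : ℝ) * z.im) :=
      mul_le_mul_of_nonneg_left (mul_le_mul_of_nonneg_right hρ_le hy.le) hm0
    nlinarith [h5, hpi]
  calc ‖a (g' • (U • z))‖ * Real.exp (((m * D : ℕ) : ℝ) * (-2 * Real.pi * z.im))
      ≤ ‖a (g' • (U • z))‖ * Real.exp ((m : ℝ) * (-2 * Real.pi * (ρ * z.im))) :=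
        mul_le_mul_of_nonneg_left hle (norm_nonneg _)
    _ ≤ C := hM'

end Fermat.Agent.S29lib.H
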