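/-
S29lib / H / MerComp  (helper1)

The field `Mer = Frac Hol` as a common target: the embedding `toMer Γ : Frac (WH0 Γ) →+* Mer` and
composition with Möbius transformations `merComp g : Mer →+* Mer` (extension of `Hol.comp g`).
-/
import Mathlib
import Fermat.Agent.ProgramR.Analytic.WH0Dedekind

set_option autoImplicit false

noncomputable section

namespace Fermat.Agent.S29lib.H

open UpperHalfPlane Fermat.Agent.ProgramR
open scoped MatrixGroups

/-- `Hol.comp` only depends on the Möbius action. -/
theorem holComp_congr {g g' : GL (Fin 2) ℝ} (hg : 0 < g.det.val) (hg' : 0 < g'.det.val)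
    (h : ∀ z : ℍ, g • z = g' • z) : Hol.comp g hg = Hol.comp g' hg' := by
  ext f z
  show (f : ℍ → ℂ) (g • z) = (f : ℍ → ℂ) (g' • z)
  rw [h z]

theorem det_pos_mul {g g' : GL (Fin 2) ℝ} (hg : 0 < g.det.val) (hg' : 0 < g'.det.val) :
    0 < (g * g').det.val := by
  rw [map_mul, Units.val_mul]
  exact mul_pos hg hg'

theorem holComp_comp {g g' : GL (Fin 2) ℝ} (hg : 0 < g.det.val) (hg' : 0 < g'.det.val)
    (f : Hol) : Hol.comp g' hg' (Hol.comp g hg f) = Hol.comp (g * g') (det_pos_mul hg hg') f := by
  apply Hol.ext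
  intro z
  simp [mul_smul]

theorem algebraMap_holComp_injective (g : GL (Fin 2) ℝ) (hg : 0 < g.det.val) :
    Function.Injective ((algebraMap Hol Mer).comp (Hol.comp g hg)) :=
  (IsFractionRing.injective Hol Mer).comp (Hol.comp_injective g hg)

/-- composition with a Möbius transformation on `Mer` -/
def merComp (g : GL (Fin 2) ℝ) (hg : 0 < g.det.val) : Mer →+* Mer :=
  IsFractionRing.lift (algebraMap_holComp_injective g hg)

@[simp] theorem merComp_algebraMap (g : GL (Fin 2) ℝ) (hg : 0 < g.det.val) (f : Hol) :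
    merComp g hg (algebraMap Hol Mer f) = algebraMap Hol Mer (Hol.comp g hg f) :=
  IsFractionRing.lift_algebraMap _ f

/-- two ring homs out of `Mer` agreeing on `Hol` agree -/
theorem mer_ringHom_ext {R : Type*} [Field R] {φ φ' : Mer →+* R}
    (h : ∀ f : Hol, φ (algebraMap Hol Mer f) = φ' (algebraMap Hol Mer f)) : φ = φ' :=
  IsLocalization.ringHom_ext (nonZeroDivisors Hol) (RingHom.ext h)

theorem merComp_congr {g g' : GL (Fin 2) ℝ} (hg : 0 < g.det.val) (hg' : 0 < g'.det.val)
    (h : ∀ z : ℍ, g • z = g' • z) : merComp g hg = merComp g' hg' := by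
  apply mer_ringHom_ext
  intro f
  rw [merComp_algebraMap, merComp_algebraMap, holComp_congr hg hg' h]

theorem merComp_comp {g g' : GL (Fin 2) ℝ} (hg : 0 < g.det.val) (hg' : 0 < g'.det.val)
    (x : Mer) : merComp g' hg' (merComp g hg x) = merComp (g * g') (det_pos_mul hg hg') x := by
  have : (merComp g' hg').comp (merComp g hg) = merComp (g * g') (det_pos_mul hg hg') := by
    apply mer_ringHom_ext
    intro f
    rw [RingHom.comp_apply, merComp_algebraMap, merComp_algebraMap, merComp_algebraMap,
      holComp_comp]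
  exact congrArg (fun φ : Mer →+* Mer => φ x) this

variable (Γ : Subgroup SL(2, ℤ))

theorem algebraMap_toHol_injective :
    Function.Injective ((algebraMap Hol Mer).comp ((WH0.toHol Γ : WH0 Γ →ₐ[ℂ] Hol) : WH0 Γ →+* Hol)) :=
  (IsFractionRing.injective Hol Mer).comp (WH0.toHol_injective Γ)

/-- the embedding of the function field of `Γ` into `Mer` -/
def toMer : WH0.FunField Γ →+* Mer :=
  IsFractionRing.lift (algebraMap_toHol_injective Γ)

@[simp] theorem toMer_algebraMap (a : WH0 Γ) :
    toMer Γ (algebraMap (WH0 Γ) (WH0.FunField Γ) a) = algebraMap Hol Mer (WH0.toHol Γ a) :=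
  IsFractionRing.lift_algebraMap _ a

theorem toMer_injective : Function.Injective (toMer Γ) := (toMer Γ).injective

/-- two ring homs out of `Frac (WH0 Γ)` agreeing on `WH0 Γ` agree -/
theorem funField_ringHom_ext {R : Type*} [Field R] {φ φ' : WH0.FunField Γ →+* R}
    (h : ∀ a : WH0 Γ, φ (algebraMap _ _ a) = φ' (algebraMap _ _ a)) : φ = φ' :=
  IsLocalization.ringHom_ext (nonZeroDivisors (WH0 Γ)) (RingHom.ext h)

end Fermat.Agent.S29lib.H
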