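/-
S29lib / H / Transversal  (helper1)

Translates `h ↦ h ∘ A` on `WH0 ⊥` by integer matrices of positive determinant, transversal data
`A x * γ = c γ x * A (σ γ x)` (`γ ∈ Γ`, `c γ x ∈ Γ'`), and the conjugate polynomial
`∏ x, (X - a ∘ A x)` of `a ∈ WH0 Γ'`, which has coefficients in `WH0 Γ`.
-/
import Mathlib
import Fermat.Agent.S29lib.H.Growth
import Fermat.Agent.S29lib.H.MerComp
import Fermat.Agent.ProgramR.Analytic.WH0Ring

set_option autoImplicit false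

noncomputable section

namespace Fermat.Agent.S29lib.H

open UpperHalfPlane Polynomial Matrix.SpecialLinearGroup Fermat.Agent.ProgramR
open scoped MatrixGroups Manifold

/-- `A ∈ GL(2,ℝ)` is the image of an integer matrix of positive determinant -/
def IsIntMat (A : GL (Fin 2) ℝ) : Prop :=
  ∃ M : Matrix (Fin 2) (Fin 2) ℤ,
    (A : Matrix (Fin 2) (Fin 2) ℝ) = M.map (Int.cast : ℤ → ℝ) ∧ 0 < M.det

theorem IsIntMat.det_pos {A : GL (Fin 2) ℝ} (h : IsIntMat A) : 0 < A.det.val := by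
  obtain ⟨M, hA, hM⟩ := h
  show 0 < Matrix.det (A : Matrix (Fin 2) (Fin 2) ℝ)
  rw [hA, Matrix.det_fin_two]
  simp only [Matrix.map_apply]
  have : (0 : ℝ) < ((M.det : ℤ) : ℝ) := by exact_mod_cast hM
  rw [Matrix.det_fin_two] at this
  push_cast at this
  exact this

theorem isIntMat_mapGL (g : SL(2, ℤ)) : IsIntMat (mapGL ℝ g : GL (Fin 2) ℝ) :=
  ⟨(g : Matrix (Fin 2) (Fin 2) ℤ), by
    rw [mapGL_coe_matrix]
    ext i j
    simp, by rw [g.det_coe]; exact one_pos⟩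

theorem isWH0_bot_glTranslate {A : GL (Fin 2) ℝ} (hA : IsIntMat A) {h : ℍ → ℂ}
    (H : IsWH0 ⊥ h) : IsWH0 ⊥ (fun z => h (A • z)) where
  mdiff := (Hol.comp A hA.det_pos ⟨h, H.mdiff⟩).2
  smul_eq := by
    intro γ hγ z
    rw [Subgroup.mem_bot] at hγ
    subst hγ
    simp
  exists_bdd := by
    obtain ⟨M, hAM, hM⟩ := hA
    exact exists_bdd_comp A M hAM hM H.exists_bdd

/-- translation `h ↦ h ∘ A` on `WH0 ⊥` by an integer matrix of positive determinant -/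
def glTranslate (A : GL (Fin 2) ℝ) (hA : IsIntMat A) :
    WH0 (⊥ : Subgroup SL(2, ℤ)) →ₐ[ℂ] WH0 (⊥ : Subgroup SL(2, ℤ)) where
  toFun h := ⟨fun z => h.1 (A • z), isWH0_bot_glTranslate hA h.2⟩
  map_one' := rfl
  map_mul' _ _ := rfl
  map_zero' := rfl
  map_add' _ _ := rfl
  commutes' _ := rfl

@[simp] theorem glTranslate_apply (A : GL (Fin 2) ℝ) (hA : IsIntMat A)
    (h : WH0 (⊥ : Subgroup SL(2, ℤ))) (z : ℍ) : (glTranslate A hA h).1 z = h.1 (A • z) := rfl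

/-- a transversal datum for `Γ' ⊆ Γ`-type situations -/
structure Transversal (Γ Γ' : Subgroup SL(2, ℤ)) (ι : Type*) where
  /-- the representatives -/
  A : ι → GL (Fin 2) ℝ
  isInt : ∀ x, IsIntMat (A x)
  /-- the permutation induced by `γ ∈ Γ` -/
  σ : Γ → Equiv.Perm ι
  /-- the cocycle, with values in `Γ'` -/
  c : Γ → ι → Γ'
  rel : ∀ (γ : Γ) (x : ι), A x * (mapGL ℝ (γ : SL(2, ℤ)) : GL (Fin 2) ℝ) =
    (mapGL ℝ ((c γ x : Γ') : SL(2, ℤ)) : GL (Fin 2) ℝ) * A (σ γ x)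

namespace Transversal

variable {Γ Γ' : Subgroup SL(2, ℤ)} {ι : Type*} (𝒯 : Transversal Γ Γ' ι)

/-- the conjugates `a ∘ A x` of `a ∈ WH0 Γ'` -/
def conj (a : WH0 Γ') (x : ι) : WH0 (⊥ : Subgroup SL(2, ℤ)) :=
  glTranslate (𝒯.A x) (𝒯.isInt x) (WH0.incl Γ' a)

@[simp] theorem conj_apply (a : WH0 Γ') (x : ι) (z : ℍ) :
    (𝒯.conj a x).1 z = a.1 (𝒯.A x • z) := rfl

theorem translate_conj (a : WH0 Γ') (γ : Γ) (x : ι) :
    WH0.translate (γ : SL(2, ℤ)) (𝒯.conj a x) = 𝒯.conj a (𝒯.σ γ x) := by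
  apply Subtype.ext
  funext z
  simp only [WH0.translate_apply, conj_apply]
  have h1 : 𝒯.A x • ((γ : SL(2, ℤ)) • z) =
      ((𝒯.c γ x : Γ') : SL(2, ℤ)) • (𝒯.A (𝒯.σ γ x) • z) := by
    show 𝒯.A x • ((mapGL ℝ (γ : SL(2, ℤ)) : GL (Fin 2) ℝ) • z) =
      (mapGL ℝ ((𝒯.c γ x : Γ') : SL(2, ℤ)) : GL (Fin 2) ℝ) • (𝒯.A (𝒯.σ γ x) • z)
    rw [← mul_smul, ← mul_smul, 𝒯.rel γ x]
  rw [h1]
  exact a.2.smul_eq _ (𝒯.c γ x).2 _

variable [Fintype ι]

/-- the conjugate polynomial `∏ x, (X - a ∘ A x)` -/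
def conjPoly (a : WH0 Γ') : (WH0 (⊥ : Subgroup SL(2, ℤ)))[X] :=
  ∏ x : ι, (X - C (𝒯.conj a x))

theorem conjPoly_monic (a : WH0 Γ') : (𝒯.conjPoly a).Monic :=
  monic_prod_of_monic _ _ (fun _ _ => monic_X_sub_C _)

theorem map_translate_conjPoly (a : WH0 Γ') (γ : Γ) :
    (𝒯.conjPoly a).map (WH0.translate (γ : SL(2, ℤ))).toRingHom = 𝒯.conjPoly a := by
  rw [conjPoly, Polynomial.map_prod]
  simp only [Polynomial.map_sub, Polynomial.map_X, Polynomial.map_C, AlgHom.toRingHom_eq_coe,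
    RingHom.coe_coe, translate_conj]
  exact Fintype.prod_equiv (𝒯.σ γ) _ _ (fun _ => rfl)

theorem isWH0_coeff_conjPoly (a : WH0 Γ') (k : ℕ) : IsWH0 Γ ((𝒯.conjPoly a).coeff k).1 where
  mdiff := ((𝒯.conjPoly a).coeff k).2.mdiff
  smul_eq := by
    intro γ hγ z
    have h1 := congrArg (fun p => (p.coeff k).1 z) (𝒯.map_translate_conjPoly a ⟨γ, hγ⟩)
    simp only [Polynomial.coeff_map, AlgHom.toRingHom_eq_coe, RingHom.coe_coe,
      WH0.translate_apply] at h1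
    exact h1
  exists_bdd := ((𝒯.conjPoly a).coeff k).2.exists_bdd

/-- **The conjugate polynomial has coefficients in `WH0 Γ`.** -/
theorem exists_monic_map_eq_conjPoly (a : WH0 Γ') :
    ∃ Q : (WH0 Γ)[X], Q.Monic ∧
      Q.map ((WH0.incl Γ : WH0 Γ →ₐ[ℂ] _) : WH0 Γ →+* _) = 𝒯.conjPoly a := by
  have hl : 𝒯.conjPoly a ∈ Polynomial.lifts ((WH0.incl Γ : WH0 Γ →ₐ[ℂ] _) : WH0 Γ →+* _) := by
    rw [Polynomial.lifts_iff_coeff_lifts]
    intro k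
    exact ⟨⟨_, 𝒯.isWH0_coeff_conjPoly a k⟩, rfl⟩
  obtain ⟨Q, hQ1, _, hQ3⟩ :=
    Polynomial.lifts_and_natDegree_eq_and_monic hl (𝒯.conjPoly_monic a)
  exact ⟨Q, hQ3, hQ1⟩

end Transversal

end Fermat.Agent.S29lib.H
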