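/-
S29lib / H / AnNorm  (helper1)

The analytic norm formula, abstractly.  Given transversal data `𝒯 : Transversal Γ Γ' ι`
(`A x * γ = c γ x * A (σ γ x)`), a ring hom `ψan : Frac (WH0 Γ) →+* Frac (WH0 Γ')` induced by
`ψ₀ : WH0 Γ →+* WH0 Γ'`, with `(ψ₀ a) ∘ A x = a` for all `x`:

* `Transversal.finite_and_finrank_le`: `Frac (WH0 Γ')` is finite over `Frac (WH0 Γ)` (via `ψan`)
  of degree `≤ #ι`.
* `Transversal.toMer_norm_eq_prod`: for the formal function fields `FBar L N → FBar L M` along a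
  compatible `ψ`, `toMer (ΦBar N e (Norm_ψ y)) = ∏ x, (ΦBar M e y) ∘ A x` in `Mer`.
-/
import Mathlib
import Fermat.Agent.S29lib.H.NormEmb
import Fermat.Agent.S29lib.H.Transversal
import Fermat.Agent.S29lib.H2.LinDisj

set_option autoImplicit false
set_option linter.style.haveILetI false
set_option linter.unusedSectionVars false

noncomputable section

namespace Fermat.Agent.S29lib.H

open UpperHalfPlane Polynomial Matrix.SpecialLinearGroup Fermat.Agent.ProgramR Module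
  CongruenceSubgroup
open Fermat.Agent.ProgramR.BarField
open scoped MatrixGroups

/-- `WH0 ⊥ → Mer` -/
def botToMer : WH0 (⊥ : Subgroup SL(2, ℤ)) →+* Mer :=
  (algebraMap Hol Mer).comp ((WH0.toHol ⊥ : WH0 ⊥ →ₐ[ℂ] Hol) : WH0 ⊥ →+* Hol)

theorem botToMer_incl (Γ : Subgroup SL(2, ℤ)) (a : WH0 Γ) :
    botToMer (WH0.incl Γ a) = toMer Γ (algebraMap (WH0 Γ) (WH0.FunField Γ) a) := by
  rw [toMer_algebraMap]
  rfl

namespace Transversal

variable {Γ Γ' : Subgroup SL(2, ℤ)} {ι : Type*} (𝒯 : Transversal Γ Γ' ι)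

/-- the embeddings `y ↦ y ∘ A x` of `Frac (WH0 Γ')` into `Mer` -/
def emb (x : ι) : WH0.FunField Γ' →+* Mer :=
  (merComp (𝒯.A x) (𝒯.isInt x).det_pos).comp (toMer Γ')

theorem emb_apply (x : ι) (y : WH0.FunField Γ') :
    𝒯.emb x y = merComp (𝒯.A x) (𝒯.isInt x).det_pos (toMer Γ' y) := rfl

theorem emb_algebraMap (x : ι) (a : WH0 Γ') :
    𝒯.emb x (algebraMap (WH0 Γ') (WH0.FunField Γ') a) = botToMer (𝒯.conj a x) := by
  rw [emb_apply, toMer_algebraMap, merComp_algebraMap]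
  rfl

variable [Fintype ι]

theorem map_botToMer_conjPoly (a : WH0 Γ') :
    (𝒯.conjPoly a).map botToMer =
      ∏ x, (X - C (𝒯.emb x (algebraMap (WH0 Γ') (WH0.FunField Γ') a))) := by
  rw [conjPoly, Polynomial.map_prod]
  refine Finset.prod_congr rfl fun x _ => ?_
  rw [Polynomial.map_sub, Polynomial.map_X, Polynomial.map_C, emb_algebraMap]

/-- the conjugate polynomial of `a ∈ WH0 Γ'` comes from a monic polynomial over `Frac (WH0 Γ)` -/
theorem exists_monic_map_toMer (a : WH0 Γ') :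
    ∃ P : (WH0.FunField Γ)[X], P.Monic ∧ P.map (toMer Γ) =
      ∏ x, (X - C (𝒯.emb x (algebraMap (WH0 Γ') (WH0.FunField Γ') a))) := by
  obtain ⟨Q, hQm, hQ⟩ := 𝒯.exists_monic_map_eq_conjPoly a
  refine ⟨Q.map (algebraMap (WH0 Γ) (WH0.FunField Γ)), hQm.map _, ?_⟩
  rw [← map_botToMer_conjPoly, ← hQ, Polynomial.map_map, Polynomial.map_map]
  congr 1
  ext b
  exact (botToMer_incl Γ b).symm

section Finite

variable (i₀ : ι) (ψ₀ : WH0 Γ →+* WH0 Γ') (ψan : WH0.FunField Γ →+* WH0.FunField Γ')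
  (hψ₀ : ∀ a, ψan (algebraMap _ _ a) = algebraMap _ _ (ψ₀ a))
  (hF1 : ∀ x (a : WH0 Γ), Hol.comp (𝒯.A x) (𝒯.isInt x).det_pos (WH0.toHol Γ' (ψ₀ a)) =
    WH0.toHol Γ a)

include hψ₀ hF1 in
/-- the embeddings are `Frac (WH0 Γ)`-linear -/
theorem emb_ψan (x : ι) (k : WH0.FunField Γ) : 𝒯.emb x (ψan k) = toMer Γ k := by
  have : (𝒯.emb x).comp ψan = toMer Γ := by
    apply funField_ringHom_ext
    intro a
    rw [RingHom.comp_apply, hψ₀, emb_apply, toMer_algebraMap, merComp_algebraMap, hF1,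
      toMer_algebraMap]
  exact congrArg (fun φ : WH0.FunField Γ →+* Mer => φ k) this

include i₀ hψ₀ hF1 in
/-- **`Frac (WH0 Γ')` is finite over `Frac (WH0 Γ)` of degree at most `#ι`.** -/
theorem finite_and_finrank_le :
    @Module.Finite (WH0.FunField Γ) (WH0.FunField Γ') _ _ ψan.toAlgebra.toModule ∧
      @finrank (WH0.FunField Γ) (WH0.FunField Γ') _ _ ψan.toAlgebra.toModule ≤
        Fintype.card ι := by
  letI a1 : Algebra (WH0.FunField Γ) (WH0.FunField Γ') := ψan.toAlgebra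
  letI a2 : Algebra (WH0.FunField Γ) Mer := (toMer Γ).toAlgebra
  haveI : CharZero (WH0.FunField Γ) :=
    charZero_of_injective_algebraMap (algebraMap ℂ (WH0.FunField Γ)).injective
  let η : ι → (WH0.FunField Γ' →ₐ[WH0.FunField Γ] Mer) := fun x =>
    { 𝒯.emb x with commutes' := fun k => 𝒯.emb_ψan ψ₀ ψan hψ₀ hF1 x k }
  have hη : ∀ x y, η x y = 𝒯.emb x y := fun _ _ => rfl
  let R : Set (WH0.FunField Γ') := Set.range (algebraMap (WH0 Γ') (WH0.FunField Γ'))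
  have hpoly : ∀ a ∈ R, ∃ P : (WH0.FunField Γ)[X], P.Monic ∧
      P.map (algebraMap (WH0.FunField Γ) Mer) = ∏ i, (X - C (η i a)) := by
    rintro _ ⟨a, rfl⟩
    exact 𝒯.exists_monic_map_toMer a
  have hintR : ∀ a ∈ R, IsIntegral (WH0.FunField Γ) a := by
    intro a ha
    obtain ⟨P, hPm, hP⟩ := hpoly a ha
    exact isIntegral_of_conjPoly_root η i₀ a P hPm hP
  -- the tower `WH0 Γ → WH0 Γ' → Frac (WH0 Γ')`, `WH0 Γ → Frac (WH0 Γ) → Frac (WH0 Γ')`
  letI a3 : Algebra (WH0 Γ) (WH0 Γ') := ψ₀.toAlgebra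
  haveI t1 : IsScalarTower (WH0 Γ) (WH0.FunField Γ) (WH0.FunField Γ') :=
    IsScalarTower.of_algebraMap_eq fun a => by
      rw [IsScalarTower.algebraMap_apply (WH0 Γ) (WH0 Γ') (WH0.FunField Γ')]
      exact (hψ₀ a).symm
  have hR : ∀ y : WH0.FunField Γ', ∃ s : WH0.FunField Γ, s ≠ 0 ∧ s • y ∈ R := by
    intro y
    obtain ⟨a, b, hb, rfl⟩ := IsFractionRing.div_surjective (A := WH0 Γ') y
    have halg : IsAlgebraic (WH0.FunField Γ)
        (algebraMap (WH0 Γ') (WH0.FunField Γ') a / algebraMap (WH0 Γ') (WH0.FunField Γ') b) := by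
      rw [div_eq_mul_inv]
      exact ((hintR _ ⟨a, rfl⟩).isAlgebraic).mul ((hintR _ ⟨b, rfl⟩).isAlgebraic).inv
    rw [← IsFractionRing.isAlgebraic_iff (WH0 Γ) (WH0.FunField Γ) (WH0.FunField Γ')] at halg
    obtain ⟨s, hs, hint⟩ := halg.exists_integral_multiple
    have hint' : IsIntegral (WH0 Γ') (s • (algebraMap (WH0 Γ') (WH0.FunField Γ') a /
        algebraMap (WH0 Γ') (WH0.FunField Γ') b)) := hint.tower_top
    obtain ⟨c, hc⟩ := IsIntegrallyClosed.isIntegral_iff.mp hint'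
    refine ⟨algebraMap (WH0 Γ) (WH0.FunField Γ) s, ?_, c, ?_⟩
    · rwa [Ne, IsFractionRing.to_map_eq_zero_iff]
    · rw [hc, algebraMap_smul]
  exact finite_and_finrank_le_of_conjPoly η i₀ R hR hpoly

end Finite

section Formal

variable {L : Type*} [Field L] [Algebra ℚ L] (e : L →+* ℂ) {N M : ℕ} [NeZero N] [NeZero M]
  (𝒯' : Transversal (Gamma0 N) (Gamma0 M) ι) (i₀ : ι)
  (ψ : FBar L N →ₐ[L] FBar L M)
  (ψ₀ : WH0 (Gamma0 N) →+* WH0 (Gamma0 M))
  (ψan : WH0.FunField (Gamma0 N) →+* WH0.FunField (Gamma0 M))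
  (hψ₀ : ∀ a, ψan (algebraMap _ _ a) = algebraMap _ _ (ψ₀ a))
  (hF1 : ∀ x (a : WH0 (Gamma0 N)),
    Hol.comp (𝒯'.A x) (𝒯'.isInt x).det_pos (WH0.toHol (Gamma0 M) (ψ₀ a)) =
      WH0.toHol (Gamma0 N) a)
  (hψ : ∀ x, ψan (ΦBar N e x) = ΦBar M e (ψ x))
  (hψC : ∀ c : ℂ, ψan (algebraMap ℂ _ c) = algebraMap ℂ _ c)

include i₀ hψ₀ hF1 hψ hψC in
/-- the formal extension along `ψ` is finite of degree at most `#ι` -/
theorem finite_and_finrank_le_formal :
    @Module.Finite (FBar L N) (FBar L M) _ _ ψ.toRingHom.toAlgebra.toModule ∧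
      @finrank (FBar L N) (FBar L M) _ _ ψ.toRingHom.toAlgebra.toModule ≤ Fintype.card ι := by
  obtain ⟨h1, h2⟩ := 𝒯'.finite_and_finrank_le i₀ ψ₀ ψan hψ₀ hF1
  obtain ⟨h3, h4⟩ := Fermat.Agent.S29lib.H2.finrank_le_finrank e N M ψ ψan hψ hψC h1
  exact ⟨h3, h4.trans h2⟩

include i₀ hψ₀ hF1 hψ hψC in
/-- **The analytic norm formula**: `Norm_ψ y`, viewed in `Mer`, is the product of the
conjugates `y ∘ A x`. -/
theorem toMer_norm_eq_prod
    (hinj : Function.Injective (fun x => (𝒯'.emb x).comp (ΦBar M e)))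
    (y : FBar L M) :
    toMer (Gamma0 N) (ΦBar N e (@Algebra.norm (FBar L N) (FBar L M) _ _ ψ.toRingHom.toAlgebra y))
      = ∏ x, 𝒯'.emb x (ΦBar M e y) := by
  obtain ⟨hfin, hle⟩ := 𝒯'.finite_and_finrank_le_formal e i₀ ψ ψ₀ ψan hψ₀ hF1 hψ hψC
  letI a1 : Algebra (FBar L N) (FBar L M) := ψ.toRingHom.toAlgebra
  letI a2 : Algebra (FBar L N) Mer := ((toMer (Gamma0 N)).comp (ΦBar N e)).toAlgebra
  haveI : FiniteDimensional (FBar L N) (FBar L M) := hfin
  haveI : CharZero L := algebraRat.charZero L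
  haveI : CharZero (FBar L N) :=
    charZero_of_injective_algebraMap (algebraMap L (FBar L N)).injective
  haveI : Algebra.IsSeparable (FBar L N) (FBar L M) := inferInstance
  let η : ι → (FBar L M →ₐ[FBar L N] Mer) := fun x =>
    { (𝒯'.emb x).comp (ΦBar M e) with
      commutes' := fun k => by
        show 𝒯'.emb x (ΦBar M e (ψ k)) = toMer (Gamma0 N) (ΦBar N e k)
        rw [← hψ, 𝒯'.emb_ψan ψ₀ ψan hψ₀ hF1] }
  have hη : Function.Injective η := by
    intro x x' h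
    apply hinj
    ext z
    exact DFunLike.congr_fun h z
  exact norm_eq_prod_of_finrank_le η hη hle y

end Formal

end Transversal

end Fermat.Agent.S29lib.H
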