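/-
S29lib / H / Degeneracy  (helper1)

The two degeneracy maps `Frac (WH0 Γ₀(N)) → Frac (WH0 Γ₀(N ℓ))` on the analytic side,
`alphaAn` (inclusion) and `betaAn` (`h ↦ h(ℓ z)`), and their compatibility with the prelude's
`heckeAlphaBar`, `heckeBetaBar` through the comparison map `ΦBar`.
-/
import Mathlib
import Fermat.Agent.S29lib.H.Transversal
import Fermat.Agent.ProgramR.BarField.Model
import Fermat.Prelude.Def_ModularCurve_HeckeOperator
import Fermat.Prelude.Sol.S_ModularForm_heckeT_slash_eq_self_of_mem_Gamma0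

set_option autoImplicit false
set_option linter.style.haveILetI false
set_option linter.unusedSectionVars false

noncomputable section

namespace Fermat.Agent.S29lib.H

open UpperHalfPlane Polynomial Matrix.SpecialLinearGroup Fermat.Agent.ProgramR Module
  CongruenceSubgroup ModularForm ModularCurve
open Fermat.Agent.ProgramR.BarField Fermat.Agent.ProgramR.QExp
open P2MW.S_ModularForm_heckeT_slash_eq_self_of_mem_Gamma0.ModularForm.HeckeSlashInvariance
open scoped MatrixGroups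

/-! ### Maps of function fields -/

section FunFieldMap

variable {Γ Γ' : Subgroup SL(2, ℤ)}

/-- the map on function fields induced by an injective ring hom `WH0 Γ → WH0 Γ'` -/
def funFieldMap (ψ₀ : WH0 Γ →+* WH0 Γ') (h : Function.Injective ψ₀) :
    WH0.FunField Γ →+* WH0.FunField Γ' :=
  IsFractionRing.lift (g := (algebraMap (WH0 Γ') (WH0.FunField Γ')).comp ψ₀)
    ((IsFractionRing.injective (WH0 Γ') (WH0.FunField Γ')).comp h)

@[simp] theorem funFieldMap_algebraMap (ψ₀ : WH0 Γ →+* WH0 Γ') (h : Function.Injective ψ₀)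
    (a : WH0 Γ) :
    funFieldMap ψ₀ h (algebraMap (WH0 Γ) (WH0.FunField Γ) a) =
      algebraMap (WH0 Γ') (WH0.FunField Γ') (ψ₀ a) :=
  IsFractionRing.lift_algebraMap _ a

end FunFieldMap

/-! ### Integer matrices -/

theorem isIntMat_heckeDiagMatrix (ℓ : ℕ) [NeZero ℓ] : IsIntMat (heckeDiagMatrix ℓ) := by
  refine ⟨!![(ℓ : ℤ), 0; 0, 1], ?_, ?_⟩
  · rw [val_heckeDiagMatrix (NeZero.ne ℓ)]
    ext i j
    fin_cases i <;> fin_cases j <;> simp
  · rw [Matrix.det_fin_two_of]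
    have : 0 < (ℓ : ℤ) := by exact_mod_cast Nat.pos_of_ne_zero (NeZero.ne ℓ)
    linarith

theorem isIntMat_heckeMatrix (ℓ : ℕ) [NeZero ℓ] (j : ℕ) : IsIntMat (heckeMatrix ℓ j) := by
  refine ⟨!![1, (j : ℤ); 0, (ℓ : ℤ)], ?_, ?_⟩
  · rw [val_heckeMatrix (NeZero.ne ℓ)]
    ext i j
    fin_cases i <;> fin_cases j <;> simp
  · rw [Matrix.det_fin_two_of]
    have : 0 < (ℓ : ℤ) := by exact_mod_cast Nat.pos_of_ne_zero (NeZero.ne ℓ)
    linarith

theorem isIntMat_heckeRep (ℓ : ℕ) [NeZero ℓ] (x : OnePoint (ZMod ℓ)) : IsIntMat (heckeRep ℓ x) := by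
  induction x using OnePoint.rec with
  | infty => exact isIntMat_heckeDiagMatrix ℓ
  | coe j => exact isIntMat_heckeMatrix ℓ j.val

variable (N ℓ : ℕ) [NeZero N] [NeZero ℓ]

theorem Gamma0_mul_le : Gamma0 (N * ℓ) ≤ Gamma0 N := by
  intro γ hγ
  rw [Gamma0_mem] at hγ ⊢
  have h3 := (ZMod.intCast_zmod_eq_zero_iff_dvd (γ 1 0) (N * ℓ)).mp hγ
  exact (ZMod.intCast_zmod_eq_zero_iff_dvd (γ 1 0) N).mpr
    (dvd_trans (Int.natCast_dvd_natCast.mpr (dvd_mul_right N ℓ)) h3)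

/-! ### The map `α` (inclusion) -/

/-- `WH0 Γ₀(N) ⊆ WH0 Γ₀(N ℓ)` -/
def alpha₀ : WH0 (Gamma0 N) →+* WH0 (Gamma0 (N * ℓ)) :=
  (Subalgebra.inclusion (WH0_mono (Gamma0_mul_le N ℓ)) :
    WH0 (Gamma0 N) →ₐ[ℂ] WH0 (Gamma0 (N * ℓ))).toRingHom

@[simp] theorem alpha₀_apply (a : WH0 (Gamma0 N)) (z : ℍ) : (alpha₀ N ℓ a).1 z = a.1 z := rfl

theorem alpha₀_injective : Function.Injective (alpha₀ N ℓ) := by
  intro a b h
  apply Subtype.ext
  exact congrArg (fun c : WH0 (Gamma0 (N * ℓ)) => c.1) h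

/-- the analytic `α` -/
def alphaAn : WH0.FunField (Gamma0 N) →+* WH0.FunField (Gamma0 (N * ℓ)) :=
  funFieldMap (alpha₀ N ℓ) (alpha₀_injective N ℓ)

theorem alphaAn_algebraMap (a : WH0 (Gamma0 N)) :
    alphaAn N ℓ (algebraMap _ _ a) = algebraMap _ _ (alpha₀ N ℓ a) :=
  funFieldMap_algebraMap _ _ a

theorem toMer_alphaAn (k : WH0.FunField (Gamma0 N)) :
    toMer (Gamma0 (N * ℓ)) (alphaAn N ℓ k) = toMer (Gamma0 N) k := by
  have : (toMer (Gamma0 (N * ℓ))).comp (alphaAn N ℓ) = toMer (Gamma0 N) := by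
    apply funField_ringHom_ext
    intro a
    rw [RingHom.comp_apply, alphaAn_algebraMap, toMer_algebraMap, toMer_algebraMap]
    rfl
  exact congrArg (fun φ : WH0.FunField (Gamma0 N) →+* Mer => φ k) this

theorem qExpFF_alphaAn (k : WH0.FunField (Gamma0 N)) :
    qExpFF (N * ℓ) (alphaAn N ℓ k) = qExpFF N k := by
  have : (qExpFF (N * ℓ)).comp (alphaAn N ℓ) = qExpFF N := by
    apply funField_ringHom_ext
    intro a
    rw [RingHom.comp_apply, alphaAn_algebraMap, qExpFF_algebraMap, qExpFF_algebraMap]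
    rfl
  exact congrArg (fun φ : WH0.FunField (Gamma0 N) →+* LaurentSeries ℂ => φ k) this

theorem alphaAn_const (c : ℂ) :
    alphaAn N ℓ (algebraMap ℂ _ c) = algebraMap ℂ _ c := by
  rw [IsScalarTower.algebraMap_apply ℂ (WH0 (Gamma0 N)) (WH0.FunField (Gamma0 N)),
    alphaAn_algebraMap,
    IsScalarTower.algebraMap_apply ℂ (WH0 (Gamma0 (N * ℓ))) (WH0.FunField (Gamma0 (N * ℓ)))]
  rfl

section Formal

variable {L : Type*} [Field L] [Algebra ℚ L] (e : L →+* ℂ)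

/-- **`α` is compatible with the comparison maps.** -/
theorem alphaAn_ΦBar (x : FBar L N) :
    alphaAn N ℓ (ΦBar N e x) = ΦBar (N * ℓ) e (heckeAlphaBar L N ℓ x) := by
  symm
  rw [ΦBar, toFunField_eq_iff, qExpFF_alphaAn, coe_heckeAlphaBar]
  exact (qExpFF_toFunField N e x).symm

end Formal

/-! ### The map `β` (`h ↦ h(ℓ z)`) -/

theorem isWH0_scale (a : WH0 (Gamma0 N)) :
    IsWH0 (Gamma0 (N * ℓ)) (fun z => a.1 (heckeDiagMatrix ℓ • z)) := by
  have h1 := (glTranslate (heckeDiagMatrix ℓ) (isIntMat_heckeDiagMatrix ℓ)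
    (WH0.incl (Gamma0 N) a)).2
  refine ⟨h1.mdiff, ?_, h1.exists_bdd⟩
  intro γ hγ z
  have hdvd : ((N * ℓ : ℕ) : ℤ) ∣ γ 1 0 :=
    (ZMod.intCast_zmod_eq_zero_iff_dvd _ _).mp (Gamma0_mem.mp hγ)
  obtain ⟨k, hk⟩ := hdvd
  obtain ⟨g', hg', hmul⟩ := heckeDiagMatrix_mul_of_eq' (NeZero.ne ℓ) γ ((N : ℤ) * k)
    (by rw [hk]; push_cast; ring)
  have hg'N : g' ∈ Gamma0 N := by
    rw [Gamma0_mem, hg']
    push_cast
    simp
  have h2 : heckeDiagMatrix ℓ • (γ • z) = g' • (heckeDiagMatrix ℓ • z) := by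
    show heckeDiagMatrix ℓ • ((mapGL ℝ γ : GL (Fin 2) ℝ) • z) =
      (mapGL ℝ g' : GL (Fin 2) ℝ) • (heckeDiagMatrix ℓ • z)
    rw [← mul_smul, ← mul_smul, hmul]
  rw [h2]
  exact a.2.smul_eq g' hg'N _

/-- `h ↦ h(ℓ z)`, `WH0 Γ₀(N) → WH0 Γ₀(N ℓ)` -/
def beta₀ : WH0 (Gamma0 N) →+* WH0 (Gamma0 (N * ℓ)) where
  toFun a := ⟨fun z => a.1 (heckeDiagMatrix ℓ • z), isWH0_scale N ℓ a⟩
  map_one' := rfl
  map_mul' _ _ := rfl
  map_zero' := rfl
  map_add' _ _ := rfl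

@[simp] theorem beta₀_apply (a : WH0 (Gamma0 N)) (z : ℍ) :
    (beta₀ N ℓ a).1 z = a.1 (heckeDiagMatrix ℓ • z) := rfl

theorem toHol_beta₀ (a : WH0 (Gamma0 N)) :
    WH0.toHol (Gamma0 (N * ℓ)) (beta₀ N ℓ a) =
      Hol.comp (heckeDiagMatrix ℓ) (isIntMat_heckeDiagMatrix ℓ).det_pos (WH0.toHol (Gamma0 N) a) :=
  rfl

theorem beta₀_injective : Function.Injective (beta₀ N ℓ) := by
  intro a b h
  apply WH0.toHol_injective (Gamma0 N)
  apply Hol.comp_injective (heckeDiagMatrix ℓ) (isIntMat_heckeDiagMatrix ℓ).det_pos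
  rw [← toHol_beta₀, ← toHol_beta₀, h]

/-- the analytic `β` -/
def betaAn : WH0.FunField (Gamma0 N) →+* WH0.FunField (Gamma0 (N * ℓ)) :=
  funFieldMap (beta₀ N ℓ) (beta₀_injective N ℓ)

theorem betaAn_algebraMap (a : WH0 (Gamma0 N)) :
    betaAn N ℓ (algebraMap _ _ a) = algebraMap _ _ (beta₀ N ℓ a) :=
  funFieldMap_algebraMap _ _ a

theorem toMer_betaAn (k : WH0.FunField (Gamma0 N)) :
    toMer (Gamma0 (N * ℓ)) (betaAn N ℓ k) =
      merComp (heckeDiagMatrix ℓ) (isIntMat_heckeDiagMatrix ℓ).det_pos (toMer (Gamma0 N) k) := by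
  have : (toMer (Gamma0 (N * ℓ))).comp (betaAn N ℓ) =
      (merComp (heckeDiagMatrix ℓ) (isIntMat_heckeDiagMatrix ℓ).det_pos).comp
        (toMer (Gamma0 N)) := by
    apply funField_ringHom_ext
    intro a
    rw [RingHom.comp_apply, RingHom.comp_apply, betaAn_algebraMap, toMer_algebraMap,
      toMer_algebraMap, merComp_algebraMap, toHol_beta₀]
  exact congrArg (fun φ : WH0.FunField (Gamma0 N) →+* Mer => φ k) this

theorem qExpFF_betaAn (k : WH0.FunField (Gamma0 N)) :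
    qExpFF (N * ℓ) (betaAn N ℓ k) = qExpand ℂ ℓ (qExpFF N k) := by
  have : (qExpFF (N * ℓ)).comp (betaAn N ℓ) = (qExpand ℂ ℓ).comp (qExpFF N) := by
    apply funField_ringHom_ext
    intro a
    rw [RingHom.comp_apply, RingHom.comp_apply, betaAn_algebraMap, qExpFF_algebraMap,
      qExpFF_algebraMap]
    obtain ⟨m, hm⟩ := mem_merRing_of_mem_WH0 N a.2
    have h1 := laurentExp_scale (d := ℓ) hm (fun z => heckeDiagMatrix ℓ • z)
      (fun τ => coe_heckeDiagMatrix_smul (NeZero.ne ℓ) τ)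
    exact h1
  exact congrArg (fun φ : WH0.FunField (Gamma0 N) →+* LaurentSeries ℂ => φ k) this

theorem betaAn_const (c : ℂ) :
    betaAn N ℓ (algebraMap ℂ _ c) = algebraMap ℂ _ c := by
  rw [IsScalarTower.algebraMap_apply ℂ (WH0 (Gamma0 N)) (WH0.FunField (Gamma0 N)),
    betaAn_algebraMap,
    IsScalarTower.algebraMap_apply ℂ (WH0 (Gamma0 (N * ℓ))) (WH0.FunField (Gamma0 (N * ℓ)))]
  rfl

section Formal

variable {L : Type*} [Field L] [Algebra ℚ L] (e : L →+* ℂ)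

/-- **`β` is compatible with the comparison maps.** -/
theorem betaAn_ΦBar (x : FBar L N) :
    betaAn N ℓ (ΦBar N e x) = ΦBar (N * ℓ) e (heckeBetaBar L N ℓ x) := by
  symm
  rw [ΦBar, toFunField_eq_iff, qExpFF_betaAn, coe_heckeBetaBar]
  show _ = (qExpand ℂ ℓ) ((qExpFF N) ((toFunField N e) x))
  rw [qExpFF_toFunField]
  exact (coeffMap_qExpand e ℓ _)

end Formal

end Fermat.Agent.S29lib.H
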