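/-
S29lib / H / AlphaNorm  (helper1)

The analytic norm formula along `α` (`ℓ ∤ N`):
`toMer (ΦBar N e (Norm_α y)) = ∏ x : P¹(𝔽_ℓ), (ΦBar (N ℓ) e y) ∘ g_x` for representatives
`g_x ∈ Γ₀(N)` of `Γ₀(N ℓ) \ Γ₀(N)`, and its consequence for `y = β f`:
`toMer (ΦBar N e (Norm_α (β f))) = ∏ x, (ΦBar N e f) ∘ heckeRep ℓ x`.
-/
import Mathlib
import Fermat.Agent.S29lib.H.AnNorm
import Fermat.Agent.S29lib.H.Degeneracy
import Fermat.Agent.S29lib.H.Comb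

set_option autoImplicit false
set_option linter.style.haveILetI false
set_option linter.unusedSectionVars false

noncomputable section

namespace Fermat.Agent.S29lib.H

open UpperHalfPlane Polynomial Matrix.SpecialLinearGroup Fermat.Agent.ProgramR Module
  CongruenceSubgroup ModularForm ModularCurve
open Fermat.Agent.ProgramR.BarField Fermat.Agent.ProgramR.QExp Fermat.Agent.ProgramR.LevelOne
open Fermat.Agent.S16lib.LH
open P2MW.S_ModularForm_heckeT_slash_eq_self_of_mem_Gamma0.ModularForm.HeckeSlashInvariance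
open scoped MatrixGroups

section TPerm

variable {N : ℕ} {ℓ : ℕ} [Fact ℓ.Prime]

theorem redMatrix_one : redMatrix ℓ (1 : SL(2, ℤ)) = 1 := by
  apply Matrix.GeneralLinearGroup.ext
  intro i j
  fin_cases i <;> fin_cases j <;> simp

theorem tPerm_one (x : OnePoint (ZMod ℓ)) : tPerm ℓ (1 : Gamma0 N) x = x := by
  simp only [tPerm, MulAction.toPerm_apply, Subgroup.coe_one, redMatrix_one, one_smul]

theorem tPerm_inv_apply (γ : Gamma0 N) (x : OnePoint (ZMod ℓ)) :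
    tPerm ℓ γ⁻¹ (tPerm ℓ γ x) = x := by
  rw [← tPerm_mul, mul_inv_cancel, tPerm_one]

theorem tPerm_apply_inv (γ : Gamma0 N) (x : OnePoint (ZMod ℓ)) :
    tPerm ℓ γ (tPerm ℓ γ⁻¹ x) = x := by
  rw [← tPerm_mul, inv_mul_cancel, tPerm_one]

theorem tPerm_infty_eq_infty_iff (γ : Gamma0 N) :
    tPerm ℓ γ OnePoint.infty = OnePoint.infty ↔ (((γ : SL(2, ℤ)) 1 0 : ℤ) : ZMod ℓ) = 0 := by
  simp only [tPerm, MulAction.toPerm_apply]
  rw [OnePoint.smul_infty_eq_self_iff, redMatrix_apply_one_zero]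

theorem tPerm_infty_of_ne (γ : Gamma0 N) (h : (((γ : SL(2, ℤ)) 1 0 : ℤ) : ZMod ℓ) ≠ 0) :
    tPerm ℓ γ OnePoint.infty =
      (((((γ : SL(2, ℤ)) 1 1 : ℤ) : ZMod ℓ) / (((γ : SL(2, ℤ)) 1 0 : ℤ) : ZMod ℓ) : ZMod ℓ) :
        OnePoint (ZMod ℓ)) := by
  simp only [tPerm, MulAction.toPerm_apply]
  rw [OnePoint.smul_infty_eq_ite, redMatrix_apply_one_zero, if_neg h, redMatrix_apply_zero_zero]

/-- every point of `P¹(𝔽_ℓ)` is `∞ · g` for some `g ∈ Γ₀(N)` (`ℓ ∤ N`) -/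
theorem exists_tPerm_infty_eq (hℓN : ¬ ℓ ∣ N) (x : OnePoint (ZMod ℓ)) :
    ∃ g : Gamma0 N, tPerm ℓ g OnePoint.infty = x := by
  induction x using OnePoint.rec with
  | infty => exact ⟨1, tPerm_one _⟩
  | coe j =>
    have hcop : IsCoprime (N : ℤ) (ℓ : ℤ) :=
      Nat.isCoprime_iff_coprime.mpr ((Nat.Prime.coprime_iff_not_dvd Fact.out).mpr hℓN).symm
    have hcop' : IsCoprime (N : ℤ) ((ℓ : ℤ) + (N : ℤ) * (j.val : ℤ)) :=
      hcop.add_mul_left_right _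
    obtain ⟨a, b, hab⟩ := hcop'
    let g : SL(2, ℤ) := ⟨!![b, -a; (N : ℤ), (ℓ : ℤ) + (N : ℤ) * (j.val : ℤ)], by
      rw [Matrix.det_fin_two_of]
      linear_combination hab⟩
    have hg10 : g 1 0 = (N : ℤ) := rfl
    have hg11 : g 1 1 = (ℓ : ℤ) + (N : ℤ) * (j.val : ℤ) := rfl
    have hgN : g ∈ Gamma0 N := by
      rw [Gamma0_mem, hg10]
      simp
    have hN0 : ((N : ℤ) : ZMod ℓ) ≠ 0 := by
      rw [Ne, ZMod.intCast_zmod_eq_zero_iff_dvd]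
      exact fun h => hℓN (Int.natCast_dvd_natCast.mp h)
    have hne : ((((⟨g, hgN⟩ : Gamma0 N) : SL(2, ℤ)) 1 0 : ℤ) : ZMod ℓ) ≠ 0 := by
      show ((g 1 0 : ℤ) : ZMod ℓ) ≠ 0
      rw [hg10]
      exact hN0
    refine ⟨⟨g, hgN⟩, ?_⟩
    rw [tPerm_infty_of_ne _ hne]
    congr 1
    show ((g 1 1 : ℤ) : ZMod ℓ) / ((g 1 0 : ℤ) : ZMod ℓ) = j
    rw [hg10, hg11]
    push_cast
    rw [ZMod.natCast_self, zero_add, ZMod.natCast_zmod_val, mul_div_cancel_left₀]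
    exact_mod_cast hN0

end TPerm

/-! ### The transversal of `α` -/

section Alpha

variable {N ℓ : ℕ} [NeZero N] [Fact ℓ.Prime] (hℓN : ¬ ℓ ∣ N)

/-- representatives `g_x ∈ Γ₀(N)` with `∞ · g_x = x` -/
def alphaRep (x : OnePoint (ZMod ℓ)) : Gamma0 N := (exists_tPerm_infty_eq hℓN x).choose

theorem tPerm_alphaRep (x : OnePoint (ZMod ℓ)) :
    tPerm ℓ (alphaRep hℓN x) OnePoint.infty = x := (exists_tPerm_infty_eq hℓN x).choose_spec

include hℓN in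
theorem mem_Gamma0_mul_of_tPerm (c : Gamma0 N)
    (h : tPerm ℓ c OnePoint.infty = OnePoint.infty) : (c : SL(2, ℤ)) ∈ Gamma0 (N * ℓ) := by
  rw [tPerm_infty_eq_infty_iff] at h
  have h1 : (N : ℤ) ∣ (c : SL(2, ℤ)) 1 0 :=
    (ZMod.intCast_zmod_eq_zero_iff_dvd _ _).mp (Gamma0_mem.mp c.2)
  have h2 : (ℓ : ℤ) ∣ (c : SL(2, ℤ)) 1 0 := (ZMod.intCast_zmod_eq_zero_iff_dvd _ _).mp h
  have hcop : IsCoprime (N : ℤ) (ℓ : ℤ) :=
    Nat.isCoprime_iff_coprime.mpr ((Nat.Prime.coprime_iff_not_dvd Fact.out).mpr hℓN).symm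
  rw [Gamma0_mem, ZMod.intCast_zmod_eq_zero_iff_dvd]
  push_cast
  exact hcop.mul_dvd h1 h2

theorem tPerm_infty_of_mem_Gamma0_mul (c : Gamma0 N) (h : (c : SL(2, ℤ)) ∈ Gamma0 (N * ℓ)) :
    tPerm ℓ c OnePoint.infty = OnePoint.infty := by
  rw [tPerm_infty_eq_infty_iff]
  have h1 := (ZMod.intCast_zmod_eq_zero_iff_dvd _ _).mp (Gamma0_mem.mp h)
  rw [ZMod.intCast_zmod_eq_zero_iff_dvd]
  exact dvd_trans (Int.natCast_dvd_natCast.mpr (dvd_mul_left ℓ N)) h1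

/-- the cocycle of the transversal of `α` -/
def alphaCoc (γ : Gamma0 N) (x : OnePoint (ZMod ℓ)) : Gamma0 N :=
  alphaRep hℓN x * γ * (alphaRep hℓN (tPerm ℓ γ x))⁻¹

theorem alphaCoc_mem (γ : Gamma0 N) (x : OnePoint (ZMod ℓ)) :
    ((alphaCoc hℓN γ x : Gamma0 N) : SL(2, ℤ)) ∈ Gamma0 (N * ℓ) := by
  apply mem_Gamma0_mul_of_tPerm hℓN
  rw [alphaCoc, tPerm_mul, tPerm_mul, tPerm_alphaRep]
  have := tPerm_inv_apply (alphaRep hℓN (tPerm ℓ γ x)) (OnePoint.infty : OnePoint (ZMod ℓ))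
  rw [tPerm_alphaRep] at this
  exact this

/-- the transversal `g_x`, `x ∈ P¹(𝔽_ℓ)`, for `α` -/
def alphaTransversal :
    haveI : NeZero ℓ := ⟨(Fact.out : ℓ.Prime).ne_zero⟩
    Transversal (Gamma0 N) (Gamma0 (N * ℓ)) (OnePoint (ZMod ℓ)) where
  A x := (mapGL ℝ ((alphaRep hℓN x : Gamma0 N) : SL(2, ℤ)) : GL (Fin 2) ℝ)
  isInt x := isIntMat_mapGL _
  σ := tPerm ℓ
  c γ x := ⟨alphaCoc hℓN γ x, alphaCoc_mem hℓN γ x⟩
  rel γ x := by
    rw [← map_mul, ← map_mul]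
    congr 1
    simp only [alphaCoc, Subgroup.coe_mul, Subgroup.coe_inv, inv_mul_cancel_right]

theorem hF1_alpha (x : OnePoint (ZMod ℓ)) (a : WH0 (Gamma0 N)) :
    Hol.comp ((alphaTransversal hℓN).A x) ((alphaTransversal hℓN).isInt x).det_pos
      (WH0.toHol (Gamma0 (N * ℓ)) (alpha₀ N ℓ a)) = WH0.toHol (Gamma0 N) a := by
  apply Hol.ext
  intro z
  exact a.2.smul_eq _ (alphaRep hℓN x).2 z

variable {L : Type*} [Field L] [Algebra ℚ L] (e : L →+* ℂ)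

theorem toHol_jdWH0_self (M : ℕ) [NeZero M] :
    WH0.toHol (Gamma0 M) (jdWH0 M M dvd_rfl) = jN M := by
  apply Hol.ext
  intro z
  show jScaledFun M z = (jN M : ℍ → ℂ) z
  rw [jN_apply, jScaledFun, Function.comp_apply]
  congr 1
  apply UpperHalfPlane.ext
  rw [coe_levelMat_smul, coe_scaleH]

theorem emb_alpha_jdBar (x : OnePoint (ZMod ℓ)) :
    (alphaTransversal hℓN).emb x (ΦBar (N * ℓ) e (jdBar (N * ℓ) (N * ℓ) dvd_rfl)) =
      algebraMap Hol Mer (Hol.slComp ((alphaRep hℓN x : Gamma0 N) : SL(2, ℤ)) (jN (N * ℓ))) := by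
  rw [ΦBar_jdBar, Transversal.emb_apply, toMer_algebraMap, merComp_algebraMap, toHol_jdWH0_self]
  rfl

theorem hinj_alpha :
    Function.Injective (fun x => ((alphaTransversal hℓN).emb x).comp (ΦBar (N * ℓ) e)) := by
  intro x x' h
  have h1 := DFunLike.congr_fun h (jdBar (N * ℓ) (N * ℓ) dvd_rfl)
  simp only [RingHom.comp_apply] at h1
  rw [emb_alpha_jdBar, emb_alpha_jdBar] at h1
  have h2 := IsFractionRing.injective Hol Mer h1
  have h3 := (slComp_inv_jN_eq_iff (N * ℓ) ((alphaRep hℓN x : Gamma0 N) : SL(2, ℤ))⁻¹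
    ((alphaRep hℓN x' : Gamma0 N) : SL(2, ℤ))⁻¹).mp (by rw [inv_inv, inv_inv]; exact h2)
  rw [inv_inv] at h3
  have h4 : ((alphaRep hℓN x * (alphaRep hℓN x')⁻¹ : Gamma0 N) : SL(2, ℤ)) ∈ Gamma0 (N * ℓ) := by
    simpa using h3
  have h5 := tPerm_infty_of_mem_Gamma0_mul _ h4
  rw [tPerm_mul, tPerm_alphaRep] at h5
  have h6 := congrArg (tPerm ℓ (alphaRep hℓN x')) h5
  rw [tPerm_apply_inv, tPerm_alphaRep] at h6
  exact h6

include hℓN in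
/-- **The analytic norm formula along `α`, `ℓ ∤ N`.** -/
theorem toMer_norm_alpha (y : FBar L (N * ℓ)) :
    haveI : NeZero ℓ := ⟨(Fact.out : ℓ.Prime).ne_zero⟩
    toMer (Gamma0 N) (ΦBar N e
      (@Algebra.norm (FBar L N) (FBar L (N * ℓ)) _ _
        (heckeAlphaBar L N ℓ).toRingHom.toAlgebra y)) =
      ∏ x : OnePoint (ZMod ℓ), (alphaTransversal hℓN).emb x (ΦBar (N * ℓ) e y) :=
  haveI : NeZero ℓ := ⟨(Fact.out : ℓ.Prime).ne_zero⟩
  (alphaTransversal hℓN).toMer_norm_eq_prod e OnePoint.infty (heckeAlphaBar L N ℓ) (alpha₀ N ℓ)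
    (alphaAn N ℓ) (alphaAn_algebraMap N ℓ) (hF1_alpha hℓN) (alphaAn_ΦBar N ℓ e)
    (alphaAn_const N ℓ) (hinj_alpha hℓN e) y

end Alpha

end Fermat.Agent.S29lib.H
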