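/-
S29lib / H / BetaNorm  (helper1)

The analytic norm formula along `β` (`ℓ ∣ N`):
`toMer (ΦBar N e (Norm_β y)) = ∏ j : ZMod ℓ, (ΦBar (N ℓ) e y) ∘ (1 j; 0 ℓ)`.
-/
import Mathlib
import Fermat.Agent.S29lib.H.AnNorm
import Fermat.Agent.S29lib.H.Degeneracy
import Fermat.Agent.S16lib.LH.Cosets

set_option autoImplicit false
set_option linter.style.haveILetI false
set_option linter.unusedSectionVars false

noncomputable section

namespace Fermat.Agent.S29lib.H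

open UpperHalfPlane Polynomial Matrix.SpecialLinearGroup Fermat.Agent.ProgramR Module
  CongruenceSubgroup ModularForm ModularCurve
open Fermat.Agent.ProgramR.BarField Fermat.Agent.ProgramR.QExp Fermat.Agent.ProgramR.LevelOne
open Fermat.Agent.S16lib.LH
open P2MW.S_ModularForm_heckeT_slash_eq_self_of_mem_Gamma0.ModularForm.HeckeSlashInvariance
open scoped MatrixGroups

/-! ### Distinctness of the functions `j((z + i)/ℓ)` -/

/-- the matrix `S T^n = (0 -1; 1 n)` -/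
def wMat (n : ℤ) : SL(2, ℤ) := ⟨!![0, -1; 1, n], by simp [Matrix.det_fin_two_of]⟩

/-- its inverse `(n 1; -1 0)` -/
def wInv (n : ℤ) : SL(2, ℤ) := ⟨!![n, 1; -1, 0], by simp [Matrix.det_fin_two_of]⟩

theorem wInv_inv (n : ℤ) : (wInv n)⁻¹ = wMat n := by
  apply inv_eq_of_mul_eq_one_right
  ext i j
  fin_cases i <;> fin_cases j <;> simp [wInv, wMat, Matrix.mul_apply, Fin.sum_univ_two]

theorem wMat_mul_wInv_one_zero (n m : ℤ) : (wMat n * wInv m) 1 0 = m - n := by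
  simp [wInv, wMat, Matrix.mul_apply, Fin.sum_univ_two]
  ring

theorem levelMat_smul_wMat (ℓ : ℕ) [NeZero ℓ] (n : ℕ) (z : ℍ) :
    levelMat ℓ • (wMat (n : ℤ) • z) = ModularGroup.S • (heckeMatrix ℓ n • z) := by
  apply UpperHalfPlane.ext
  rw [coe_levelMat_smul, coe_specialLinearGroup_apply, coe_specialLinearGroup_apply,
    coe_heckeMatrix_smul (NeZero.ne ℓ)]
  have hℓ : (ℓ : ℂ) ≠ 0 := by exact_mod_cast NeZero.ne ℓ
  have hz : (z : ℂ) + n ≠ 0 := by
    intro h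
    have := congrArg Complex.im h
    simp at this
    exact z.im_pos.ne' this
  simp only [wMat, ModularGroup.S, Matrix.SpecialLinearGroup.coe_mk, Matrix.of_apply,
    Matrix.cons_val', Matrix.cons_val_zero, Matrix.cons_val_one, Matrix.empty_val',
    Matrix.cons_val_fin_one, algebraMap_int_eq, eq_intCast, Int.cast_zero, Int.cast_one,
    Int.cast_neg, Int.cast_natCast, Complex.ofReal_zero, Complex.ofReal_one, Complex.ofReal_neg,
    Complex.ofReal_natCast, zero_mul, zero_add, one_mul, add_zero]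
  field_simp

theorem heckeMatrix_jInv_injective (ℓ : ℕ) [NeZero ℓ] (i i' : ZMod ℓ)
    (H : ∀ z : ℍ, jInv (heckeMatrix ℓ i.val • z) = jInv (heckeMatrix ℓ i'.val • z)) : i = i' := by
  have H' : ∀ z : ℍ, jInv (levelMat ℓ • ((wInv (i.val : ℤ))⁻¹ • z)) =
      jInv (levelMat ℓ • ((wInv (i'.val : ℤ))⁻¹ • z)) := by
    intro z
    rw [wInv_inv, wInv_inv, levelMat_smul_wMat, levelMat_smul_wMat, jInv_smul, jInv_smul]
    exact H z
  have h1 := inv_mul_mem_Gamma0_of_forall_jInv_eq ℓ _ _ H'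
  rw [wInv_inv, Gamma0_mem, wMat_mul_wInv_one_zero] at h1
  push_cast at h1
  rw [ZMod.natCast_zmod_val, ZMod.natCast_zmod_val] at h1
  exact (sub_eq_zero.mp h1).symm

/-! ### The transversal of `β` -/

section Beta

variable {N ℓ : ℕ} [NeZero N] [NeZero ℓ] (hℓN : ℓ ∣ N)

theorem uCoc_mem_Gamma0_mul (γ : Gamma0 N) (x : ZMod ℓ) :
    ((uCoc hℓN γ x : Gamma0 N) : SL(2, ℤ)) ∈ Gamma0 (N * ℓ) := by
  have hp : ℓ ≠ 0 := NeZero.ne ℓ
  have h := uCoc_rel hℓN γ x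
  have h10 := congrFun (congrFun (congrArg
    (fun M : GL (Fin 2) ℝ => (M : Matrix (Fin 2) (Fin 2) ℝ)) h) 1) 0
  simp only [Matrix.GeneralLinearGroup.coe_mul, Matrix.mul_apply, Fin.sum_univ_two,
    val_heckeMatrix hp, mapGL_apply] at h10
  simp [-ZMod.natCast_val] at h10
  have h10' : (ℓ : ℤ) * (γ : SL(2, ℤ)) 1 0 = ((uCoc hℓN γ x : Gamma0 N) : SL(2, ℤ)) 1 0 := by
    exact_mod_cast h10
  rw [Gamma0_mem, ← h10']
  have hcN : (N : ℤ) ∣ (γ : SL(2, ℤ)) 1 0 :=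
    (ZMod.intCast_zmod_eq_zero_iff_dvd _ _).mp (Gamma0_mem.mp γ.2)
  rw [ZMod.intCast_zmod_eq_zero_iff_dvd]
  obtain ⟨k, hk⟩ := hcN
  exact ⟨k, by rw [hk]; push_cast; ring⟩

/-- the transversal `(1 j; 0 ℓ)`, `j ∈ ℤ/ℓ`, for `β` -/
def betaTransversal : Transversal (Gamma0 N) (Gamma0 (N * ℓ)) (ZMod ℓ) where
  A j := heckeMatrix ℓ j.val
  isInt j := isIntMat_heckeMatrix ℓ j.val
  σ := uPerm hℓN
  c γ j := ⟨uCoc hℓN γ j, uCoc_mem_Gamma0_mul hℓN γ j⟩
  rel := uCoc_rel hℓN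

@[simp] theorem betaTransversal_A (j : ZMod ℓ) :
    (betaTransversal hℓN).A j = heckeMatrix ℓ j.val := rfl

theorem heckeDiag_smul_heckeMatrix_smul (j : ℕ) (z : ℍ) :
    heckeDiagMatrix ℓ • (heckeMatrix ℓ j • z) = (ModularGroup.T ^ (j : ℤ)) • z := by
  apply UpperHalfPlane.ext
  rw [coe_heckeDiagMatrix_smul (NeZero.ne ℓ), coe_heckeMatrix_smul (NeZero.ne ℓ),
    ModularGroup.coe_T_zpow_smul_eq]
  have hℓ : (ℓ : ℂ) ≠ 0 := by exact_mod_cast NeZero.ne ℓ
  push_cast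
  field_simp

theorem hF1_beta (x : ZMod ℓ) (a : WH0 (Gamma0 N)) :
    Hol.comp ((betaTransversal hℓN).A x) ((betaTransversal hℓN).isInt x).det_pos
      (WH0.toHol (Gamma0 (N * ℓ)) (beta₀ N ℓ a)) = WH0.toHol (Gamma0 N) a := by
  apply Hol.ext
  intro z
  show a.1 (heckeDiagMatrix ℓ • (heckeMatrix ℓ x.val • z)) = a.1 z
  rw [heckeDiag_smul_heckeMatrix_smul]
  exact a.2.smul_eq _ (Subgroup.zpow_mem _ (T_mem_Gamma0 N) _) z

variable {L : Type*} [Field L] [Algebra ℚ L] (e : L →+* ℂ)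

theorem emb_beta_jBar (x : ZMod ℓ) :
    (betaTransversal hℓN).emb x (ΦBar (N * ℓ) e (jBar L (N * ℓ))) =
      algebraMap Hol Mer (Hol.comp (heckeMatrix ℓ x.val) (isIntMat_heckeMatrix ℓ x.val).det_pos
        ⟨jInv, mdifferentiable_jInv⟩) := by
  rw [ΦBar_jBar, Transversal.emb_algebraMap]
  rfl

theorem hinj_beta :
    Function.Injective (fun x => ((betaTransversal hℓN).emb x).comp (ΦBar (N * ℓ) e)) := by
  intro x x' h
  have h1 := DFunLike.congr_fun h (jBar L (N * ℓ))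
  simp only [RingHom.comp_apply] at h1
  rw [emb_beta_jBar, emb_beta_jBar] at h1
  have h2 := IsFractionRing.injective Hol Mer h1
  apply heckeMatrix_jInv_injective ℓ
  intro z
  have := congrArg (fun F : Hol => (F : ℍ → ℂ) z) h2
  simpa using this

include hℓN in
/-- **The analytic norm formula along `β`, `ℓ ∣ N`.** -/
theorem toMer_norm_beta (y : FBar L (N * ℓ)) :
    toMer (Gamma0 N) (ΦBar N e
      (@Algebra.norm (FBar L N) (FBar L (N * ℓ)) _ _ (heckeBetaBar L N ℓ).toRingHom.toAlgebra y)) =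
      ∏ x : ZMod ℓ, merComp (heckeMatrix ℓ x.val) (isIntMat_heckeMatrix ℓ x.val).det_pos
        (toMer (Gamma0 (N * ℓ)) (ΦBar (N * ℓ) e y)) :=
  (betaTransversal hℓN).toMer_norm_eq_prod e 0 (heckeBetaBar L N ℓ) (beta₀ N ℓ) (betaAn N ℓ)
    (betaAn_algebraMap N ℓ) (hF1_beta hℓN) (betaAn_ΦBar N ℓ e) (betaAn_const N ℓ)
    (hinj_beta hℓN e) y

end Beta

end Fermat.Agent.S29lib.H
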