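/-
S29lib / H / HeckeNorm  (helper1)

The analytic norm formulas in Hecke form:
* `ℓ ∤ N`: `toMer (ΦBar N e (Norm_α (β f))) = ∏ x : P¹(𝔽_ℓ), (ΦBar N e f) ∘ heckeRep ℓ x`;
* `ℓ ∣ N`: `toMer (ΦBar N e (Norm_β (α f))) = ∏ j : ℤ/ℓ, (ΦBar N e f) ∘ (1 j; 0 ℓ)`.
-/
import Mathlib
import Fermat.Agent.S29lib.H.AlphaNorm
import Fermat.Agent.S29lib.H.BetaNorm

set_option autoImplicit false
set_option linter.style.haveILetI false
set_option linter.unusedSectionVars false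

noncomputable section

namespace Fermat.Agent.S29lib.H

open UpperHalfPlane Polynomial Matrix.SpecialLinearGroup Fermat.Agent.ProgramR Module
  CongruenceSubgroup ModularForm ModularCurve
open Fermat.Agent.ProgramR.BarField Fermat.Agent.ProgramR.QExp Fermat.Agent.ProgramR.LevelOne
open Fermat.Agent.S16lib.LH
open P2MW.S_ModularForm_heckeT_slash_eq_self_of_mem_Gamma0.ModularForm.HeckeSlashInvariance
open scoped MatrixGroups

theorem merComp_eq_of_eq {g g' : GL (Fin 2) ℝ} (hg : 0 < g.det.val) (hg' : 0 < g'.det.val)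
    (h : g = g') : merComp g hg = merComp g' hg' := by
  subst h
  rfl

/-- elements of `Frac (WH0 Γ)` are `Γ`-invariant in `Mer` -/
theorem merComp_toMer_of_mem (Γ : Subgroup SL(2, ℤ)) {c : SL(2, ℤ)} (hc : c ∈ Γ)
    (k : WH0.FunField Γ) :
    merComp (mapGL ℝ c : GL (Fin 2) ℝ) (isIntMat_mapGL c).det_pos (toMer Γ k) = toMer Γ k := by
  have : (merComp (mapGL ℝ c : GL (Fin 2) ℝ) (isIntMat_mapGL c).det_pos).comp (toMer Γ) =
      toMer Γ := by
    apply funField_ringHom_ext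
    intro a
    rw [RingHom.comp_apply, toMer_algebraMap, merComp_algebraMap]
    congr 1
    apply Hol.ext
    intro z
    exact a.2.smul_eq c hc z
  exact congrArg (fun φ : WH0.FunField Γ →+* Mer => φ k) this

variable {N ℓ : ℕ} [NeZero N] {L : Type*} [Field L] [Algebra ℚ L] (e : L →+* ℂ)

/-- **Analytic norm formula for `T_ℓ`, `ℓ ∤ N`.** -/
theorem toMer_norm_alpha_beta [Fact ℓ.Prime] (hℓN : ¬ ℓ ∣ N) (f : FBar L N) :
    haveI : NeZero ℓ := ⟨(Fact.out : ℓ.Prime).ne_zero⟩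
    toMer (Gamma0 N) (ΦBar N e
      (@Algebra.norm (FBar L N) (FBar L (N * ℓ)) _ _
        (heckeAlphaBar L N ℓ).toRingHom.toAlgebra (heckeBetaBar L N ℓ f))) =
      ∏ x : OnePoint (ZMod ℓ), merComp (heckeRep ℓ x) (isIntMat_heckeRep ℓ x).det_pos
        (toMer (Gamma0 N) (ΦBar N e f)) := by
  haveI : NeZero ℓ := ⟨(Fact.out : ℓ.Prime).ne_zero⟩
  rw [toMer_norm_alpha hℓN e (heckeBetaBar L N ℓ f)]
  refine Finset.prod_congr rfl fun x _ => ?_
  rw [Transversal.emb_apply, ← betaAn_ΦBar, toMer_betaAn, merComp_comp]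
  have hrel := tCoc_rel hℓN (alphaRep hℓN x) OnePoint.infty
  rw [tPerm_alphaRep] at hrel
  have hrel' : heckeDiagMatrix ℓ * (alphaTransversal hℓN).A x =
      (mapGL ℝ ((tCoc hℓN (alphaRep hℓN x) OnePoint.infty : Gamma0 N) : SL(2, ℤ)) :
        GL (Fin 2) ℝ) * heckeRep ℓ x := hrel
  rw [merComp_eq_of_eq _ (det_pos_mul (isIntMat_mapGL _).det_pos (isIntMat_heckeRep ℓ x).det_pos)
    hrel', ← merComp_comp (isIntMat_mapGL _).det_pos (isIntMat_heckeRep ℓ x).det_pos,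
    merComp_toMer_of_mem (Gamma0 N) (tCoc hℓN (alphaRep hℓN x) OnePoint.infty).2]

/-- **Analytic norm formula for `U_ℓ`, `ℓ ∣ N`.** -/
theorem toMer_norm_beta_alpha [NeZero ℓ] (hℓN : ℓ ∣ N) (f : FBar L N) :
    toMer (Gamma0 N) (ΦBar N e
      (@Algebra.norm (FBar L N) (FBar L (N * ℓ)) _ _
        (heckeBetaBar L N ℓ).toRingHom.toAlgebra (heckeAlphaBar L N ℓ f))) =
      ∏ x : ZMod ℓ, merComp (heckeMatrix ℓ x.val) (isIntMat_heckeMatrix ℓ x.val).det_pos
        (toMer (Gamma0 N) (ΦBar N e f)) := by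
  rw [toMer_norm_beta hℓN e (heckeAlphaBar L N ℓ f)]
  refine Finset.prod_congr rfl fun x _ => ?_
  rw [← alphaAn_ΦBar, toMer_alphaAn]

end Fermat.Agent.S29lib.H
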