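/-
S29lib / H / KumTransfer  (helper1)

Kummer characters of products over a transversal: if `F ∈ Frac (WH0 Γ)` has Kummer character `χ`
(`K1.IsKum Γ n F χ`) and `𝒯 : Transversal Γ Γ ι` (`A x * γ = c γ x * A (σ γ x)`), then
`F' = ∏ x, F ∘ A x` has Kummer character `γ ↦ ∏ x, χ (c γ x)`.
-/
import Mathlib
import Fermat.Agent.S29lib.H.AnNorm
import Fermat.Agent.S29lib.K1.Kummer

set_option autoImplicit false
set_option linter.style.haveILetI false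
set_option linter.unusedSectionVars false

noncomputable section

namespace Fermat.Agent.S29lib.H

open UpperHalfPlane Polynomial Matrix.SpecialLinearGroup Fermat.Agent.ProgramR Module
  CongruenceSubgroup
open Fermat.Agent.S29lib.K1
open scoped MatrixGroups

theorem hol_prod_apply {ι : Type*} (s : Finset ι) (f : ι → Hol) (z : ℍ) :
    ((∏ x ∈ s, f x : Hol) : ℍ → ℂ) z = ∏ x ∈ s, (f x : ℍ → ℂ) z :=
  map_prod (Hol.evalAt z) f s

namespace Transversal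

variable {Γ Γ' : Subgroup SL(2, ℤ)} {ι : Type*} [Fintype ι] (𝒯 : Transversal Γ Γ' ι)

theorem isWH0_prod_conj (a : WH0 Γ') : IsWH0 Γ (∏ x, 𝒯.conj a x : WH0 ⊥).1 where
  mdiff := (∏ x, 𝒯.conj a x : WH0 ⊥).2.mdiff
  smul_eq := by
    intro γ hγ z
    have h1 : WH0.translate γ (∏ x, 𝒯.conj a x) = ∏ x, 𝒯.conj a x := by
      rw [map_prod]
      simp only [𝒯.translate_conj a ⟨γ, hγ⟩]
      exact Fintype.prod_equiv (𝒯.σ ⟨γ, hγ⟩) _ _ (fun _ => rfl)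
    have h2 := congrArg (fun h : WH0 (⊥ : Subgroup SL(2, ℤ)) => h.1 z) h1
    simpa only [WH0.translate_apply] using h2
  exists_bdd := (∏ x, 𝒯.conj a x : WH0 ⊥).2.exists_bdd

/-- the norm `∏ x, a ∘ A x ∈ WH0 Γ` of `a ∈ WH0 Γ'` -/
def normWH0 (a : WH0 Γ') : WH0 Γ := ⟨_, 𝒯.isWH0_prod_conj a⟩

theorem toHol_normWH0 (a : WH0 Γ') :
    WH0.toHol Γ (𝒯.normWH0 a) =
      ∏ x, Hol.comp (𝒯.A x) (𝒯.isInt x).det_pos (WH0.toHol Γ' a) := by
  have h1 : WH0.toHol Γ (𝒯.normWH0 a) = WH0.toHol ⊥ (∏ x, 𝒯.conj a x) := rfl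
  rw [h1, map_prod]
  rfl

theorem normWH0_ne_zero {a : WH0 Γ'} (ha : a ≠ 0) : 𝒯.normWH0 a ≠ 0 := by
  intro h
  have h1 := congrArg (WH0.toHol Γ) h
  rw [toHol_normWH0, map_zero, Finset.prod_eq_zero_iff] at h1
  obtain ⟨x, -, hx⟩ := h1
  rw [← map_zero (Hol.comp (𝒯.A x) (𝒯.isInt x).det_pos)] at hx
  exact toHol_ne_zero Γ' ha (Hol.comp_injective _ _ hx)

theorem toMer_normWH0 (a : WH0 Γ') :
    toMer Γ (algebraMap (WH0 Γ) (WH0.FunField Γ) (𝒯.normWH0 a)) =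
      ∏ x, 𝒯.emb x (algebraMap (WH0 Γ') (WH0.FunField Γ') a) := by
  rw [toMer_algebraMap, toHol_normWH0, map_prod]
  refine Finset.prod_congr rfl fun x _ => ?_
  rw [emb_apply, toMer_algebraMap, merComp_algebraMap]

end Transversal

namespace Transversal

variable {Γ : Subgroup SL(2, ℤ)} {ι : Type*} [Fintype ι] (𝒯 : Transversal Γ Γ ι)

/-- **Kummer character of a product over a transversal.** -/
theorem isKum_prod {n : ℕ} {F F' : WH0.FunField Γ} {χ χ' : Γ →* ℂˣ}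
    (hK : IsKum Γ n F χ)
    (hF' : toMer Γ F' = ∏ x, merComp (𝒯.A x) (𝒯.isInt x).det_pos (toMer Γ F))
    (hχ' : ∀ γ, χ' γ = ∏ x, χ (𝒯.c γ x)) :
    IsKum Γ n F' χ' := by
  obtain ⟨G, b, y, hb, hG, hGf, hy, hT⟩ := hK
  refine ⟨𝒯.normWH0 G, 𝒯.normWH0 b, ∏ x, Hol.comp (𝒯.A x) (𝒯.isInt x).det_pos y,
    𝒯.normWH0_ne_zero hb, 𝒯.normWH0_ne_zero hG, ?_, ?_, ?_⟩
  · apply toMer_injective Γ
    rw [map_mul, map_pow, toMer_normWH0, toMer_normWH0, hF', ← Finset.prod_pow,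
      ← Finset.prod_mul_distrib]
    refine Finset.prod_congr rfl fun x _ => ?_
    rw [hGf, map_mul, map_pow]
    rfl
  · rw [toHol_normWH0, ← Finset.prod_pow]
    refine Finset.prod_congr rfl fun x _ => ?_
    rw [← map_pow, hy]
  · apply Transforms.of_apply
    intro γ z
    rw [hol_prod_apply, hol_prod_apply, hχ' γ]
    push_cast
    rw [← Equiv.prod_comp (𝒯.σ γ) (fun x =>
      (Hol.comp (𝒯.A x) (𝒯.isInt x).det_pos y : ℍ → ℂ) z), ← Finset.prod_mul_distrib]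
    refine Finset.prod_congr rfl fun x _ => ?_
    rw [Hol.comp_apply, Hol.comp_apply]
    have h1 : 𝒯.A x • ((γ : SL(2, ℤ)) • z) =
        ((𝒯.c γ x : Γ) : SL(2, ℤ)) • (𝒯.A (𝒯.σ γ x) • z) := by
      show 𝒯.A x • ((mapGL ℝ (γ : SL(2, ℤ)) : GL (Fin 2) ℝ) • z) =
        (mapGL ℝ ((𝒯.c γ x : Γ) : SL(2, ℤ)) : GL (Fin 2) ℝ) • (𝒯.A (𝒯.σ γ x) • z)
      rw [← mul_smul, ← mul_smul, 𝒯.rel γ x]
    rw [h1, hT.apply]

end Transversal

end Fermat.Agent.S29lib.H
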