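/-
S29lib / H / HeckeNormInput  (helper1)

**The function-level Hecke input of the Kummer comparison** (`D.HeckeNormInput`, helper2's
`D/AsmHeckeNorm.lean`): the Kummer character of `N_α(β f)` (`ℓ ∤ N`), resp. `N_β(α f)` (`ℓ ∣ N`),
is the combinatorial Hecke operator `combT` applied to the Kummer character of `f`.
-/
import Mathlib
import Fermat.Agent.S29lib.H.HeckeNorm
import Fermat.Agent.S29lib.H.KumTransfer
import Fermat.Agent.S29lib.D.AsmHeckeNorm

set_option autoImplicit false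
set_option linter.style.haveILetI false
set_option linter.unusedSectionVars false

noncomputable section

namespace Fermat.Agent.S29lib.H

open UpperHalfPlane Polynomial Matrix.SpecialLinearGroup Fermat.Agent.ProgramR Module
  CongruenceSubgroup ModularForm ModularCurve
open Fermat.Agent.ProgramR.BarField
open Fermat.Agent.S16lib.LH
open P2MW.S_ModularForm_heckeT_slash_eq_self_of_mem_Gamma0.ModularForm.HeckeSlashInvariance
open scoped MatrixGroups

local notation "Qb" => AlgebraicClosure ℚ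

theorem addChar_sum {A M : Type*} [AddCommMonoid A] [CommMonoid M] (φ : AddChar A M)
    {ι : Type*} (s : Finset ι) (f : ι → A) : φ (∑ i ∈ s, f i) = ∏ i ∈ s, φ (f i) := by
  classical
  induction s using Finset.induction_on with
  | empty => simp
  | insert a s ha ih =>
    rw [Finset.sum_insert ha, Finset.prod_insert ha, AddChar.map_add_eq_mul, ih]

/-- the character attached to `combOp ψ` is `γ ↦ ∏ x, χ_ψ (c γ x)` -/
theorem expChar_combOp {Γ : Type*} [Group Γ] {ι : Type*} [Fintype ι] (D : CosetDatum Γ ι)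
    (n : ℕ) [NeZero n] (ψ : Additive Γ →+ ZMod n) (γ : Γ) :
    K3.expChar n (D.combOp (ZMod n) ψ) γ = ∏ x, K3.expChar n ψ (D.c γ x) := by
  apply Units.ext
  rw [K3.expChar_apply, CosetDatum.combOp_apply, addChar_sum, Units.coe_prod]
  rfl

section Transversals

variable {N ℓ : ℕ}

/-- the Hecke transversal of `T_ℓ`, `ℓ ∤ N` -/
def heckeTransversalT [Fact ℓ.Prime] (hℓN : ¬ ℓ ∣ N) :
    Transversal (Gamma0 N) (Gamma0 N) (OnePoint (ZMod ℓ)) where
  A := heckeRep ℓ
  isInt := isIntMat_heckeRep ℓ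
  σ := tPerm ℓ
  c := tCoc hℓN
  rel := tCoc_rel hℓN

/-- the Hecke transversal of `U_ℓ`, `ℓ ∣ N` -/
def heckeTransversalU [NeZero ℓ] (hℓN : ℓ ∣ N) :
    Transversal (Gamma0 N) (Gamma0 N) (ZMod ℓ) where
  A j := heckeMatrix ℓ j.val
  isInt j := isIntMat_heckeMatrix ℓ j.val
  σ := uPerm hℓN
  c := uCoc hℓN
  rel := uCoc_rel hℓN

end Transversals

/-- **`D.HeckeNormInput N n` holds** (block H2). -/
theorem heckeNormInput (N : ℕ) [NeZero N] [Algebra Qb ℂ] (n : ℕ) [NeZero n] :
    Fermat.Agent.S29lib.D.HeckeNormInput N n := by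
  intro ℓ f ψ _ _ _ hK
  haveI : Fact (ℓ : ℕ).Prime := ⟨ℓ.2⟩
  haveI : NeZero (ℓ : ℕ) := ⟨ℓ.2.ne_zero⟩
  by_cases hd : (ℓ : ℕ) ∣ N
  · rw [Fermat.Agent.S29lib.D.normTJ_of_dvd N hd, combT_of_dvd N hd]
    exact (heckeTransversalU hd).isKum_prod hK
      (toMer_norm_beta_alpha (algebraMap Qb ℂ) hd f)
      (fun γ => expChar_combOp (uDatum hd) n ψ γ)
  · rw [Fermat.Agent.S29lib.D.normTJ_of_not_dvd N hd, combT_of_not_dvd N hd]
    exact (heckeTransversalT hd).isKum_prod hK
      (toMer_norm_alpha_beta (algebraMap Qb ℂ) hd f)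
      (fun γ => expChar_combOp (tDatum hd) n ψ γ)

end Fermat.Agent.S29lib.H
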